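/-
P-S16, block U3, piece (F-L) (helper21): "no normal subextension" at prime level.

`k` algebraically closed of characteristic `ℓ`, `p ≠ ℓ` prime.  In `k((z))` (`z = q^(1/p)`) put
`x = j(z^p)`, `θ = j(z^(p^2))`, `θ_i = j(ζ^i z)`.  The modular equation gives
`Φ(X, x) = (X - θ) ∏_{i<p} (X - θ_i)` and Igusa's independence gives `[k(x, θ) : k(x)] = p + 1`.
Hence there are `k(x)`-embeddings `σ_i : k(x, θ) → k((z))`, `θ ↦ θ_i`, with
`twist ζ ∘ σ_i = σ_{i+1}`.  If all conjugates of `β ∈ k(x, θ)` lie in `k((z^p))` then the `σ_i`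
agree on `k(x)(β)`, so `p ≤ [k(x, θ) : k(x)(β)]`, which forces `β ∈ k(x)`.
-/
import Mathlib
import Fermat.Agent.Gateway.GoodRed.Inputs
import Fermat.Agent.Gateway.GoodRed.Instantiate.GaussData
import Fermat.Prelude.Thm_ModularCurve_coeff_jqModC_neg_one

set_option autoImplicit false
set_option linter.unusedSectionVars false

namespace Fermat.Agent.S16.Three

open IntermediateField Polynomial

/-- **Abstract counting lemma.** `m` distinct `K`-embeddings of `E` into `L` that agree at `β`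
agree on `K(β)`, hence `m ≤ [E : K(β)]`. -/
theorem mul_finrank_adjoin_le {K E L : Type*} [Field K] [Field E] [Field L] [Algebra K E]
    [Algebra K L] [FiniteDimensional K E] {m : ℕ} (σ : Fin m → (E →ₐ[K] L))
    (hσ : Function.Injective σ) (β : E) (hβ : ∀ i j, σ i β = σ j β) :
    m * Module.finrank K K⟮β⟯ ≤ Module.finrank K E := by
  rcases Nat.eq_zero_or_pos m with rfl | hm
  · simp
  set i0 : Fin m := ⟨0, hm⟩
  -- all `σ i` agree on `K(β)`
  have hagree : ∀ i, (σ i).comp K⟮β⟯.val = (σ i0).comp K⟮β⟯.val := by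
    intro i
    apply adjoin_algHom_ext
    intro y hy
    rw [Set.mem_singleton_iff] at hy
    subst hy
    exact hβ i i0
  let _ : Algebra K⟮β⟯ L := ((σ i0).comp K⟮β⟯.val).toRingHom.toAlgebra
  have hcomm : ∀ (i : Fin m) (a : K⟮β⟯), σ i (algebraMap K⟮β⟯ E a) = algebraMap K⟮β⟯ L a := by
    intro i a
    exact DFunLike.congr_fun (hagree i) a
  let σ' : Fin m → (E →ₐ[K⟮β⟯] L) := fun i =>
    { (σ i).toRingHom with commutes' := hcomm i }
  have hσ' : Function.Injective σ' := by
    intro i j h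
    apply hσ
    ext e
    exact DFunLike.congr_fun h e
  have h1 : m ≤ Nat.card (E →ₐ[K⟮β⟯] L) := by
    have := Nat.card_le_card_of_injective σ' hσ'
    rwa [Nat.card_eq_fintype_card, Fintype.card_fin] at this
  have h2 := card_algHom_le_finrank K⟮β⟯ E L
  have h3 := Module.finrank_mul_finrank K K⟮β⟯ E
  calc m * Module.finrank K K⟮β⟯ ≤ Module.finrank K⟮β⟯ E * Module.finrank K K⟮β⟯ :=
        Nat.mul_le_mul_right _ (h1.trans h2)
    _ = Module.finrank K E := by rw [mul_comm, h3]

/-- **Abstract form of lemma (L).** If `[E : K] = m + 1`, `m ≥ 2`, and `m` distinct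
`K`-embeddings of `E` agree at `β`, then `β ∈ K`. -/
theorem mem_range_algebraMap_of_embeddings {K E L : Type*} [Field K] [Field E] [Field L]
    [Algebra K E] [Algebra K L] [FiniteDimensional K E] {m : ℕ} (hm : 2 ≤ m)
    (hrank : Module.finrank K E = m + 1) (σ : Fin m → (E →ₐ[K] L))
    (hσ : Function.Injective σ) (β : E) (hβ : ∀ i j, σ i β = σ j β) :
    β ∈ Set.range (algebraMap K E) := by
  have hA := mul_finrank_adjoin_le σ hσ β hβ
  rw [hrank] at hA
  have hd1 : Module.finrank K K⟮β⟯ = 1 := by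
    have hpos : 0 < Module.finrank K K⟮β⟯ := Module.finrank_pos
    by_contra hne
    have h2 : 2 ≤ Module.finrank K K⟮β⟯ := by omega
    have h3 : m * 2 ≤ m * Module.finrank K K⟮β⟯ := Nat.mul_le_mul_left m h2
    omega
  rw [IntermediateField.finrank_adjoin_simple_eq_one_iff, IntermediateField.mem_bot] at hd1
  exact hd1

/-! ### The concrete situation at prime level -/

section Concrete

open ModularCurve Fermat.Agent.S28 Fermat.Agent.S28.Tower Fermat.Agent.Gateway.GoodRed

variable (k : Type) [Field k] (p : ℕ) [Fact p.Prime]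

/-- `x = j(z^p)`. -/
noncomputable def xz : LaurentSeries k := qExpand k p (jqModC k)

/-- `θ = j(z^(p^2))`. -/
noncomputable def thz : LaurentSeries k := qExpand k (p ^ 2) (jqModC k)

variable {k}

/-- `θ_i = j(ζ^i z)`. -/
noncomputable def thi (ζ : kˣ) (i : ℕ) : LaurentSeries k := Fermat.Agent.S28.twist (ζ ^ i) (jqModC k)

variable (k)

/-- The subfield `k((z^p))` of `k((z))`. -/
noncomputable def Lp : IntermediateField k (LaurentSeries k) := (qExpandAlgHomC k p).fieldRange

theorem mem_Lp_iff (f : LaurentSeries k) : f ∈ Lp k p ↔ ∃ g, qExpand k p g = f := by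
  unfold Lp
  rw [AlgHom.mem_fieldRange]
  rfl

theorem xz_mem_Lp : xz k p ∈ Lp k p := (mem_Lp_iff k p _).mpr ⟨_, rfl⟩

theorem thz_mem_Lp : thz k p ∈ Lp k p := by
  rw [mem_Lp_iff]
  refine ⟨qExpand k p (jqModC k), ?_⟩
  rw [qExpand_qExpand]
  exact qExpand_congr (pow_two p).symm _

/-- The base field `K = k(x)`. -/
noncomputable abbrev Kx : IntermediateField k (LaurentSeries k) := k⟮xz k p⟯

theorem Kx_le_Lp : Kx k p ≤ Lp k p := by
  rw [IntermediateField.adjoin_le_iff]
  rintro _ rfl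
  exact xz_mem_Lp k p

/-- `x` as an element of `K`. -/
noncomputable def xK : Kx k p := ⟨xz k p, IntermediateField.mem_adjoin_simple_self k _⟩

/-- Evaluation `ℤ[Y] → K`, `Y ↦ x`. -/
noncomputable def evalYK : ℤ[X] →+* Kx k p :=
  Polynomial.eval₂RingHom (Int.castRingHom (Kx k p)) (xK k p)

theorem algebraMap_comp_evalYK :
    (algebraMap (Kx k p) (LaurentSeries k)).comp (evalYK k p) = evalY (xz k p) := by
  apply Polynomial.ringHom_ext
  · intro a
    simp [evalYK, evalY]
  · simp [evalYK, evalY, xK]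

/-- The modular polynomial with coefficients in `K = k(x)`. -/
noncomputable def PhiK : (Kx k p)[X] :=
  (ModEq.modularEquation p Fact.out).Φ.map (evalYK k p)

theorem PhiK_monic : (PhiK k p).Monic := (ModEq.modularEquation p Fact.out).monic.map _

theorem PhiK_natDegree : (PhiK k p).natDegree = p + 1 := by
  rw [PhiK, (ModEq.modularEquation p Fact.out).monic.natDegree_map,
    (ModEq.modularEquation p Fact.out).natDegree_eq]

variable {k}

theorem PhiK_map {ζ : kˣ} (hζ : IsPrimitiveRoot ζ p) :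
    (PhiK k p).map (algebraMap (Kx k p) (LaurentSeries k)) =
      (X - C (thz k p)) * ∏ i ∈ Finset.range p, (X - C (thi ζ i)) := by
  rw [PhiK, Polynomial.map_map, algebraMap_comp_evalYK]
  exact (ModEq.modularEquation p Fact.out).factor ζ hζ

theorem aeval_thz_PhiK {ζ : kˣ} (hζ : IsPrimitiveRoot ζ p) :
    aeval (thz k p) (PhiK k p) = 0 := by
  rw [aeval_def, ← eval_map, PhiK_map p hζ, eval_mul, eval_sub, eval_X, eval_C, sub_self,
    zero_mul]

theorem aeval_thi_PhiK {ζ : kˣ} (hζ : IsPrimitiveRoot ζ p) {i : ℕ} (hi : i < p) :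
    aeval (thi ζ i) (PhiK k p) = 0 := by
  rw [aeval_def, ← eval_map, PhiK_map p hζ, eval_mul, eval_prod,
    Finset.prod_eq_zero (Finset.mem_range.mpr hi), mul_zero]
  rw [eval_sub, eval_X, eval_C, sub_self]

end Concrete

/-! ### Igusa's independence at prime level, in the variable `z` -/

section Indep

open ModularCurve Fermat.Agent.S28 Fermat.Agent.S28.Tower Fermat.Agent.Gateway.GoodRed

variable {k : Type} [Field k] [IsAlgClosed k] (ℓ : ℕ) [Fact ℓ.Prime] [CharP k ℓ]
  (p : ℕ) [Fact p.Prime] (hℓp : ℓ ≠ p)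

theorem bound_prime : bound p = Finsupp.single p p := by
  have hp : p.Prime := Fact.out
  unfold bound stepBound
  rw [hp.primeFactors, Finset.sum_singleton, hp.factorization_self]
  simp

theorem single_mem_box {a : ℕ} (ha : a ≤ p) : Finsupp.single p a ∈ box p := by
  rw [mem_box, bound_prime]
  exact Finsupp.single_mono ha

theorem eq_single_of_mem_box {μ : ℕ →₀ ℕ} (hμ : μ ∈ box p) :
    μ = Finsupp.single p (μ p) ∧ μ p ≤ p := by
  rw [mem_box, bound_prime] at hμ
  refine ⟨?_, ?_⟩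
  · ext d
    by_cases hd : d = p
    · subst hd; simp
    · have := hμ d
      rw [Finsupp.single_apply, if_neg (Ne.symm hd)] at this
      rw [Finsupp.single_apply, if_neg (Ne.symm hd)]
      omega
  · have := hμ p
    rwa [Finsupp.single_eq_same] at this

include hℓp in
/-- Igusa: `1, j(q^p), …, j(q^p)^p` are independent over `k[j(q)]`. -/
theorem indep_q (c : ℕ → k[X])
    (h : ∑ a ∈ Finset.range (p + 1),
      aeval (jqModC k) (c a) * (qExpand k p (jqModC k)) ^ a = 0) : ∀ a ≤ p, c a = 0 := by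
  have hℓN : ¬ ℓ ∣ p := by
    intro hd
    exact hℓp ((Nat.prime_dvd_prime_iff_eq Fact.out Fact.out).mp hd)
  have key := box_indepMod (k := k) ℓ hℓN (fun μ : box p => c ((μ : ℕ →₀ ℕ) p)) ?_
  · intro a ha
    have := key ⟨Finsupp.single p a, single_mem_box p ha⟩
    simpa using this
  · rw [Finset.sum_coe_sort (box p) (fun μ => aeval (jqModC k) (c (μ p)) * ev k μ), ← h]
    refine Finset.sum_bij' (fun μ _ => μ p) (fun a _ => Finsupp.single p a) ?_ ?_ ?_ ?_ ?_
    · intro μ hμ
      exact Finset.mem_range.mpr (Nat.lt_succ_of_le (eq_single_of_mem_box p hμ).2)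
    · intro a ha
      exact single_mem_box p (Nat.lt_succ_iff.mp (Finset.mem_range.mp ha))
    · intro μ hμ
      exact (eq_single_of_mem_box p hμ).1.symm
    · intro a _
      simp
    · intro μ hμ
      have h1 := (eq_single_of_mem_box p hμ).1
      conv_lhs => rw [h1, ev_single, jS_eq_qExpand]
      simp

include hℓp in
/-- Igusa's independence transported to the variable `z`: `1, θ, …, θ^p` are independent over
`k[x]`. -/
theorem indep_z (c : ℕ → k[X])
    (h : ∑ a ∈ Finset.range (p + 1), aeval (xz k p) (c a) * (thz k p) ^ a = 0) :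
    ∀ a ≤ p, c a = 0 := by
  apply indep_q ℓ p hℓp
  apply qExpand_injective (R := k) (N := p)
  rw [map_zero, map_sum, ← h]
  refine Finset.sum_congr rfl fun a _ => ?_
  rw [map_mul, map_pow, qExpand_qExpand]
  congr 1
  · exact (Polynomial.aeval_algHom_apply (qExpandAlgHomC k p) (jqModC k) (c a)).symm
  · congr 1
    exact qExpand_congr (pow_two p).symm _

end Indep

/-! ### The minimal polynomial of `θ` and the conjugate embeddings -/

section Embeddings

open ModularCurve Fermat.Agent.S28 Fermat.Agent.S28.Tower Fermat.Agent.Gateway.GoodRed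

variable {k : Type} [Field k] [IsAlgClosed k] (ℓ : ℕ) [Fact ℓ.Prime] [CharP k ℓ]
  (p : ℕ) [Fact p.Prime] (hℓp : ℓ ≠ p) {ζ : kˣ} (hζ : IsPrimitiveRoot ζ p)

include hζ in
theorem isIntegral_thz : IsIntegral (Kx k p) (thz k p) :=
  ⟨PhiK k p, PhiK_monic k p, aeval_thz_PhiK p hζ⟩

include hℓp hζ in
theorem natDegree_minpoly_thz : (minpoly (Kx k p) (thz k p)).natDegree = p + 1 := by
  have hint := isIntegral_thz p hζ
  apply le_antisymm
  · have h := natDegree_le_natDegree
      (minpoly.min (Kx k p) (thz k p) (PhiK_monic k p) (aeval_thz_PhiK p hζ))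
    rwa [PhiK_natDegree] at h
  · by_contra hlt
    rw [not_le] at hlt
    set m := minpoly (Kx k p) (thz k p) with hm
    have h0 : aeval (thz k p) m = 0 := minpoly.aeval _ _
    rw [Polynomial.aeval_eq_sum_range' hlt, Finset.sum_range] at h0
    have hind : ∀ c : Fin (p + 1) → k[X],
        ∑ i, aeval (xz k p) (c i) * (thz k p) ^ (i : ℕ) = 0 → ∀ i, c i = 0 := by
      intro c hc i
      have := indep_z ℓ p hℓp (fun a => if h : a < p + 1 then c ⟨a, h⟩ else 0) ?_ i
        (Nat.lt_succ_iff.mp i.2)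
      · rwa [dif_pos i.2] at this
      · rw [Finset.sum_range, ← hc]
        refine Finset.sum_congr rfl fun a _ => ?_
        rw [dif_pos a.2]
    have hall := eq_zero_of_indep_poly (xz k p) (fun a : Fin (p + 1) => (thz k p) ^ (a : ℕ)) hind
      (fun a => m.coeff a) ?_
    · have h1 := hall ⟨m.natDegree, hlt⟩
      have h2 : m.coeff m.natDegree = 1 := (minpoly.monic hint).coeff_natDegree
      rw [h2] at h1
      exact one_ne_zero h1
    · rw [← h0]
      refine Finset.sum_congr rfl fun a _ => ?_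
      rw [Algebra.smul_def]
      rfl

include hℓp hζ in
theorem minpoly_thz : minpoly (Kx k p) (thz k p) = PhiK k p := by
  have hint := isIntegral_thz p hζ
  refine (Polynomial.eq_of_monic_of_dvd_of_natDegree_le (minpoly.monic hint) (PhiK_monic k p)
    (minpoly.dvd _ _ (aeval_thz_PhiK p hζ)) ?_).symm
  rw [PhiK_natDegree, natDegree_minpoly_thz ℓ p hℓp hζ]

/-- The field `E = K(θ)`. -/
noncomputable abbrev Eth : IntermediateField (Kx k p) (LaurentSeries k) := (Kx k p)⟮thz k p⟯

omit [IsAlgClosed k] in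
theorem isTorsionFree_Kx : Module.IsTorsionFree (Kx k p) (LaurentSeries k) where
  isSMulRegular r hr m₁ m₂ h := by
    have hr0 : r ≠ 0 := hr.ne_zero
    have h1 := congrArg (fun m => r⁻¹ • m) h
    simpa [smul_smul, inv_mul_cancel₀ hr0] using h1

attribute [local instance] isTorsionFree_Kx

include hℓp hζ in
theorem thi_mem_aroots {i : ℕ} (hi : i < p) :
    thi ζ i ∈ (minpoly (Kx k p) (thz k p)).aroots (LaurentSeries k) := by
  rw [Polynomial.mem_aroots]
  refine ⟨minpoly.ne_zero (isIntegral_thz p hζ), ?_⟩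
  rw [minpoly_thz ℓ p hℓp hζ]
  exact aeval_thi_PhiK p hζ hi

/-- The conjugate embedding `σ_i : K(θ) → k((z))`, `θ ↦ θ_i`. -/
noncomputable def sig {i : ℕ} (hi : i < p) : Eth (k := k) p →ₐ[Kx k p] LaurentSeries k :=
  (algHomAdjoinIntegralEquiv (Kx k p) (isIntegral_thz p hζ)).symm
    ⟨thi ζ i, thi_mem_aroots ℓ p hℓp hζ hi⟩

theorem sig_gen {i : ℕ} (hi : i < p) :
    sig ℓ p hℓp hζ hi (AdjoinSimple.gen (Kx k p) (thz k p)) = thi ζ i :=
  algHomAdjoinIntegralEquiv_symm_apply_gen (Kx k p) (isIntegral_thz p hζ) _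

include hζ in
theorem thi_injOn {i j : ℕ} (hi : i < p) (hj : j < p) (h : thi ζ i = thi ζ j) : i = j := by
  have h1 := congrArg (fun f : LaurentSeries k => f.coeff (-1)) h
  simp only [thi, Fermat.Agent.S28.twist_coeff, coeff_jqModC_neg_one, mul_one] at h1
  have h2 : (ζ ^ i) ^ (-1 : ℤ) = (ζ ^ j) ^ (-1 : ℤ) := Units.ext h1
  rw [zpow_neg_one, zpow_neg_one, inv_inj] at h2
  exact hζ.pow_inj hi hj h2

theorem sig_injective {i j : ℕ} (hi : i < p) (hj : j < p)
    (h : sig ℓ p hℓp hζ hi = sig ℓ p hℓp hζ hj) : i = j := by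
  apply thi_injOn p hζ hi hj
  rw [← sig_gen ℓ p hℓp hζ hi, ← sig_gen ℓ p hℓp hζ hj, h]

/-- The twist `z ↦ ζ z` as a `K`-algebra endomorphism of `k((z))`. -/
noncomputable def twistK (hζp : ζ ^ p = 1) : LaurentSeries k →ₐ[Kx k p] LaurentSeries k :=
  { Fermat.Agent.S28.twist ζ with
    commutes' := fun a => by
      obtain ⟨g, hg⟩ := (mem_Lp_iff k p _).mp (Kx_le_Lp k p a.2)
      show Fermat.Agent.S28.twist ζ (a : LaurentSeries k) = a
      rw [← hg, Fermat.Agent.S28.twist_qExpand_of_pow_eq_one ζ p hζp] }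

theorem twistK_apply (hζp : ζ ^ p = 1) (f : LaurentSeries k) :
    twistK p hζp f = Fermat.Agent.S28.twist ζ f := rfl

theorem twistK_comp_sig {i : ℕ} (hi : i + 1 < p) :
    (twistK p hζ.pow_eq_one).comp (sig ℓ p hℓp hζ (Nat.lt_of_succ_lt hi))
      = sig ℓ p hℓp hζ hi := by
  apply adjoin_algHom_ext
  intro y hy
  rw [Set.mem_singleton_iff] at hy
  subst hy
  have h1 := sig_gen ℓ p hℓp hζ hi
  have h2 := sig_gen ℓ p hℓp hζ (Nat.lt_of_succ_lt hi)
  rw [AlgHom.comp_apply]
  change (twistK p hζ.pow_eq_one)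
    ((sig ℓ p hℓp hζ (Nat.lt_of_succ_lt hi)) (AdjoinSimple.gen (Kx k p) (thz k p))) =
      (sig ℓ p hℓp hζ hi) (AdjoinSimple.gen (Kx k p) (thz k p))
  rw [h1, h2, twistK_apply, thi, thi, Fermat.Agent.S28.twist_twist, pow_succ']

end Embeddings

/-! ### The main lemma in the variable `z` -/

section Main

open ModularCurve Fermat.Agent.S28 Fermat.Agent.S28.Tower Fermat.Agent.Gateway.GoodRed

variable {k : Type} [Field k] [IsAlgClosed k] (ℓ : ℕ) [Fact ℓ.Prime] [CharP k ℓ]
  (p : ℕ) [Fact p.Prime] (hℓp : ℓ ≠ p)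

include hℓp in
theorem natCast_prime_ne_zero : ((p : ℕ) : k) ≠ 0 := by
  intro h0
  have h1 := (CharP.cast_eq_zero_iff k ℓ p).mp h0
  exact hℓp ((Nat.prime_dvd_prime_iff_eq Fact.out Fact.out).mp h1)

include hℓp in
/-- **Lemma (L), prime level.** An element of `k(x, θ)` all of whose `k(x)`-conjugates in `k((z))`
lie in `k((z^p))` belongs to `k(x)`. -/
theorem mem_Kx_of_conjugates (β : LaurentSeries k) (hβ : β ∈ Eth (k := k) p)
    (hconj : ∀ σ : Eth (k := k) p →ₐ[Kx k p] LaurentSeries k, σ ⟨β, hβ⟩ ∈ Lp k p) :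
    β ∈ Kx k p := by
  obtain ⟨ζ, hζ⟩ := exists_primitiveRoot_unit (k := k) p (natCast_prime_ne_zero ℓ p hℓp)
  have hp : p.Prime := Fact.out
  have hint := isIntegral_thz p hζ
  have : FiniteDimensional (Kx k p) (Eth (k := k) p) :=
    IntermediateField.adjoin.finiteDimensional hint
  have hrank : Module.finrank (Kx k p) (Eth (k := k) p) = p + 1 := by
    rw [IntermediateField.adjoin.finrank hint, natDegree_minpoly_thz ℓ p hℓp hζ]
  set β' : Eth (k := k) p := ⟨β, hβ⟩ with hβ'
  -- all `σ_i β` agree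
  have hstep : ∀ (i : ℕ) (hi : i + 1 < p),
      sig ℓ p hℓp hζ hi β' = sig ℓ p hℓp hζ (Nat.lt_of_succ_lt hi) β' := by
    intro i hi
    rw [← twistK_comp_sig ℓ p hℓp hζ hi, AlgHom.comp_apply, twistK_apply]
    obtain ⟨g, hg⟩ := (mem_Lp_iff k p _).mp (hconj (sig ℓ p hℓp hζ (Nat.lt_of_succ_lt hi)))
    rw [← hg, Fermat.Agent.S28.twist_qExpand_of_pow_eq_one ζ p hζ.pow_eq_one]
  have hall : ∀ (i : ℕ) (hi : i < p), sig ℓ p hℓp hζ hi β' = sig ℓ p hℓp hζ hp.pos β' := by
    intro i
    induction i with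
    | zero => intro _; rfl
    | succ n ih =>
      intro hi
      rw [hstep n hi, ih (Nat.lt_of_succ_lt hi)]
  obtain ⟨a, ha⟩ := mem_range_algebraMap_of_embeddings hp.two_le hrank
    (fun i : Fin p => sig ℓ p hℓp hζ i.2)
    (fun i j h => Fin.ext (sig_injective ℓ p hℓp hζ i.2 j.2 h)) β'
    (fun i j => by rw [hall i i.2, hall j j.2])
  have h4 : (a : LaurentSeries k) = β :=
    congrArg (fun e : Eth (k := k) p => (e : LaurentSeries k)) ha
  rw [← h4]
  exact a.2

end Main

/-! ### Back to the variable `q` -/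

section QWorld

open ModularCurve Fermat.Agent.S28 Fermat.Agent.S28.Tower Fermat.Agent.Gateway.GoodRed

variable {k : Type} [Field k] [IsAlgClosed k] (ℓ : ℕ) [Fact ℓ.Prime] [CharP k ℓ]
  (p : ℕ) [Fact p.Prime] (hℓp : ℓ ≠ p)

omit [IsAlgClosed k] in
theorem map_adjoin_jq :
    (k⟮jqModC k⟯).map (qExpandAlgHomC k p) = Kx k p := by
  rw [IntermediateField.adjoin_map, Set.image_singleton]
  rfl

omit [IsAlgClosed k] in
/-- `f ∈ k(j(q))` iff `f(z^p) ∈ k(x)`. -/
theorem qExpand_mem_Kx_iff (f : LaurentSeries k) :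
    qExpand k p f ∈ Kx k p ↔ f ∈ k⟮jqModC k⟯ := by
  rw [← map_adjoin_jq p, IntermediateField.mem_map]
  constructor
  · rintro ⟨g, hg, hgf⟩
    have : g = f := qExpand_injective (R := k) (N := p) hgf
    rwa [← this]
  · intro hf
    exact ⟨f, hf, rfl⟩

omit [IsAlgClosed k] in
/-- The level-`p` function field, expanded in `z`, lies in `k(x, θ)`. -/
theorem qExpand_mem_Eth {f : LaurentSeries k} (hf : f ∈ modularFunctionFieldFullC k p) :
    qExpand k p f ∈ Eth (k := k) p := by
  have hle : (modularFunctionFieldFullC k p).map (qExpandAlgHomC k p)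
      ≤ (Eth (k := k) p).restrictScalars k := by
    rw [modularFunctionFieldFullC, IntermediateField.adjoin_map, IntermediateField.adjoin_le_iff]
    rintro _ ⟨_, ⟨d, hd0, hd, rfl⟩, rfl⟩
    rw [SetLike.mem_coe, IntermediateField.mem_restrictScalars, qExpandAlgHomC_apply,
      qExpand_qExpand]
    rcases (Nat.dvd_prime Fact.out).mp hd with rfl | rfl
    · have h1 : qExpand k (p * 1) (jqModC k) = xz k p := qExpand_congr (mul_one p) _
      rw [h1]
      exact (Eth (k := k) p).algebraMap_mem (xK k p)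
    · have h1 : qExpand k (d * d) (jqModC k) = thz k d := qExpand_congr (pow_two d).symm _
      rw [h1]
      exact IntermediateField.mem_adjoin_simple_self _ _
  exact hle ((IntermediateField.mem_map _).mpr ⟨f, hf, rfl⟩)

include hℓp in
/-- **Lemma (L) in the variable `q`.** An element `β` of the level-`p` function field mod `ℓ`
whose `k(j)`-conjugates (in `k((q^(1/p)))`) all lie in `k((q))` belongs to `k(j)`. -/
theorem mem_adjoin_jq_of_conjugates {β : LaurentSeries k}
    (hβ : β ∈ modularFunctionFieldFullC k p)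
    (hconj : ∀ σ : Eth (k := k) p →ₐ[Kx k p] LaurentSeries k,
      σ ⟨qExpand k p β, qExpand_mem_Eth p hβ⟩ ∈ Lp k p) :
    β ∈ k⟮jqModC k⟯ :=
  (qExpand_mem_Kx_iff p β).mp
    (mem_Kx_of_conjugates ℓ p hℓp (qExpand k p β) (qExpand_mem_Eth p hβ) hconj)

end QWorld

/-! ### Consequences: Artin–Schreier and Kummer elements -/

section Corollaries

open ModularCurve Fermat.Agent.S28 Fermat.Agent.S28.Tower Fermat.Agent.Gateway.GoodRed

theorem mem_range_algebraMap_of_isIntegral {k K : Type*} [Field k] [Field K] [IsAlgClosed k]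
    [Algebra k K] {x : K} (hx : IsIntegral k x) : x ∈ Set.range (algebraMap k K) := by
  have hq : (minpoly k x).leadingCoeff = 1 := minpoly.monic hx
  have h : (minpoly k x).degree = 1 :=
    IsAlgClosed.degree_eq_one_of_irreducible k (minpoly.irreducible hx)
  have h0 : aeval x (minpoly k x) = 0 := minpoly.aeval k x
  rw [eq_X_add_C_of_degree_eq_one h, hq, C_1, one_mul, aeval_add, aeval_X, aeval_C,
    add_eq_zero_iff_eq_neg] at h0
  exact ⟨-(minpoly k x).coeff 0, by rw [map_neg]; exact h0.symm⟩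

variable {k : Type} [Field k] [IsAlgClosed k]

/-- **Artin–Schreier elements (characteristic 3).** If `β` lies in the level-`p` function field
mod `3` (`p ≠ 3`) and `β ^ 3 - β ∈ k(j)`, then `β ∈ k(j)`. -/
theorem artinSchreier_mem_adjoin_jq [CharP k 3] (p : ℕ) [Fact p.Prime] (hp3 : 3 ≠ p)
    {β : LaurentSeries k} (hβ : β ∈ modularFunctionFieldFullC k p)
    (hc : β ^ 3 - β ∈ k⟮jqModC k⟯) : β ∈ k⟮jqModC k⟯ := by
  have : Fact (Nat.Prime 3) := ⟨Nat.prime_three⟩
  apply mem_adjoin_jq_of_conjugates 3 p hp3 hβ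
  intro σ
  set βz : LaurentSeries k := qExpand k p β with hβz
  have hcz : βz ^ 3 - βz ∈ Kx k p := by
    rw [hβz, ← map_pow, ← map_sub]
    exact (qExpand_mem_Kx_iff p _).mpr hc
  set β' : Eth (k := k) p := ⟨βz, qExpand_mem_Eth p hβ⟩ with hβ'
  set y : LaurentSeries k := σ β' with hy
  have h1 : y ^ 3 - y = βz ^ 3 - βz := by
    have h2 : β' ^ 3 - β' = algebraMap (Kx k p) (Eth (k := k) p) ⟨βz ^ 3 - βz, hcz⟩ :=
      Subtype.ext rfl
    calc y ^ 3 - y = σ (β' ^ 3 - β') := by rw [map_sub, map_pow]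
      _ = σ (algebraMap (Kx k p) (Eth (k := k) p) ⟨βz ^ 3 - βz, hcz⟩) := by rw [h2]
      _ = algebraMap (Kx k p) (LaurentSeries k) ⟨βz ^ 3 - βz, hcz⟩ := σ.commutes _
      _ = βz ^ 3 - βz := rfl
  have : CharP (LaurentSeries k) 3 :=
    charP_of_injective_algebraMap (algebraMap k (LaurentSeries k)).injective 3
  have h3 : (3 : LaurentSeries k) = 0 := by
    have := CharP.cast_eq_zero (LaurentSeries k) 3
    exact_mod_cast this
  have ht : (y - βz) * ((y - βz) - 1) * ((y - βz) + 1) = 0 := by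
    linear_combination h1 + (y * βz ^ 2 - y ^ 2 * βz) * h3
  have hβzL : βz ∈ Lp k p := (mem_Lp_iff k p _).mpr ⟨β, rfl⟩
  rcases mul_eq_zero.mp ht with h4 | h4
  · rcases mul_eq_zero.mp h4 with h5 | h5
    · have : y = βz := by linear_combination h5
      rw [this]; exact hβzL
    · have : y = βz + 1 := by linear_combination h5
      rw [this]; exact add_mem hβzL (one_mem _)
  · have : y = βz - 1 := by linear_combination h4
    rw [this]; exact sub_mem hβzL (one_mem _)

/-- **Kummer elements.** If `β` lies in the level-`p` function field mod `ℓ` (`p ≠ ℓ`) and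
`β ^ h ∈ k(j)` for some `h ≥ 1`, then `β ∈ k(j)`. -/
theorem pow_mem_adjoin_jq (ℓ : ℕ) [Fact ℓ.Prime] [CharP k ℓ] (p : ℕ) [Fact p.Prime] (hℓp : ℓ ≠ p)
    {β : LaurentSeries k} (hβ : β ∈ modularFunctionFieldFullC k p) {h : ℕ} (hh : 0 < h)
    (hc : β ^ h ∈ k⟮jqModC k⟯) : β ∈ k⟮jqModC k⟯ := by
  rcases eq_or_ne β 0 with rfl | hβ0
  · exact zero_mem _
  apply mem_adjoin_jq_of_conjugates ℓ p hℓp hβ
  intro σ
  set βz : LaurentSeries k := qExpand k p β with hβz
  have hβz0 : βz ≠ 0 := by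
    rw [hβz, Ne, map_eq_zero_iff _ (qExpand_injective (R := k) (N := p))]
    exact hβ0
  have hcz : βz ^ h ∈ Kx k p := by
    rw [hβz, ← map_pow]
    exact (qExpand_mem_Kx_iff p _).mpr hc
  set β' : Eth (k := k) p := ⟨βz, qExpand_mem_Eth p hβ⟩ with hβ'
  set y : LaurentSeries k := σ β' with hy
  have h1 : y ^ h = βz ^ h := by
    have h2 : β' ^ h = algebraMap (Kx k p) (Eth (k := k) p) ⟨βz ^ h, hcz⟩ := Subtype.ext rfl
    calc y ^ h = σ (β' ^ h) := by rw [map_pow]
      _ = σ (algebraMap (Kx k p) (Eth (k := k) p) ⟨βz ^ h, hcz⟩) := by rw [h2]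
      _ = algebraMap (Kx k p) (LaurentSeries k) ⟨βz ^ h, hcz⟩ := σ.commutes _
      _ = βz ^ h := rfl
  have hu : (y / βz) ^ h = 1 := by
    rw [div_pow, h1, div_self (pow_ne_zero h hβz0)]
  have hint : IsIntegral k (y / βz) := IsIntegral.of_pow hh (hu ▸ isIntegral_one)
  obtain ⟨c, hc⟩ := mem_range_algebraMap_of_isIntegral hint
  have hβzL : βz ∈ Lp k p := (mem_Lp_iff k p _).mpr ⟨β, rfl⟩
  have hy' : y = algebraMap k (LaurentSeries k) c * βz := by
    rw [hc, div_mul_cancel₀ _ hβz0]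
  rw [hy']
  exact mul_mem ((Lp k p).algebraMap_mem c) hβzL

end Corollaries

end Fermat.Agent.S16.Three
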