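/-
S16, block U3: Artin–Schreier final step. If `j` is transcendental over `k` and
`(Y ^ 3 - Y) * j = 1`, then `Y` is not a rational function of `j`.
-/
import Mathlib
import Fermat.Agent.S16.U5.Algebra

set_option autoImplicit false

namespace Fermat.Agent.S16.Three

open Fermat.Agent.S16.U5

theorem not_mem_adjoin_of_artinSchreier {k L : Type*} [Field k] [Field L] [Algebra k L]
    {j Y : L} (hj : Transcendental k j) (hY : (Y ^ 3 - Y) * j = 1) :
    Y ∉ IntermediateField.adjoin k {j} := by
  intro hmem
  apply not_exists_artinSchreier (k := k)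
  refine ⟨(RatFunc.algEquivOfTranscendental j hj).symm ⟨Y, hmem⟩, ?_⟩
  have hsub : ((⟨Y, hmem⟩ : IntermediateField.adjoin k {j}) ^ 3 - ⟨Y, hmem⟩) *
      IntermediateField.AdjoinSimple.gen k j = 1 := by
    apply Subtype.ext
    push_cast
    rw [IntermediateField.AdjoinSimple.coe_gen]
    exact hY
  have := congrArg (RatFunc.algEquivOfTranscendental j hj).symm hsub
  rwa [map_mul, map_sub, map_pow, RatFunc.algEquivOfTranscendental_symm_gen, map_one] at this

end Fermat.Agent.S16.Three
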