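import Mathlib
import Fermat.Agent.S23.IntSeries

/-!
# P-S16, block U3 (a): the Artin–Schreier relation `Y³ - Y ≡ Δ (mod 3)` (helper40)

`Y := (E₄ - 1)/3 = 80 ∑ σ₃(n) qⁿ ∈ ℤ⟦q⟧` satisfies `Y³ - Y ≡ Δ (mod 3)` as integral `q`-series.

Ingredients: `E₄² = E₈` (Mathlib's Sturm bound at weight `8`), `1728 Δ = E₄³ - E₆²` and the
divisor-wise congruence `d³ (d² - 1)(d² + 71) ≡ 0 (mod 360)`.

Main statements
* `E4Z_sq : E4Z ^ 2 = E8Z`;
* `E4Z_eq : E4Z = 1 + 3 * YZ`;
* `artinSchreier : ∃ R : PowerSeries ℤ, YZ ^ 3 - YZ - DeltaZ = 3 * R`;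
* `artinSchreier_zmod : Ybar ^ 3 - Ybar = DeltaBar` in `(ZMod 3)⟦X⟧`, and
  `map_E4Z_zmod : E4Z.map _ = 1`.
-/

set_option autoImplicit false

open PowerSeries ArithmeticFunction UpperHalfPlane ModularForm ModularFormClass MatrixGroups
  EisensteinSeries
open scoped ArithmeticFunction.sigma

namespace Fermat.Agent.S16.Three

open Fermat.Agent.S23.IntSeries

/-! ### `E₄² = E₈` -/

/-- The integer q-expansion `1 + 480 ∑ σ_7(n) q^n` of `E₈`. -/
noncomputable def E8Z : PowerSeries ℤ := 1 + 480 * sigmaSeries 7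

theorem coeff_E8Z (n : ℕ) : coeff n E8Z = if n = 0 then 1 else 480 * (σ 7 n : ℤ) := by
  have h : (480 : PowerSeries ℤ) = C (480 : ℤ) := (map_ofNat C 480).symm
  rw [E8Z, map_add, h, coeff_C_mul, coeff_sigmaSeries, coeff_one]
  split_ifs with hn
  · subst hn; simp
  · simp

/-- The Eisenstein series of weight `8`. -/
noncomputable abbrev E8 : ModularForm 𝒮ℒ ((8 : ℕ) : ℤ) := E (k := 8) (by norm_num)

theorem qExpansion_E8 : qExpansion 1 E8 = E8Z.map (Int.castRingHom ℂ) := by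
  ext n
  rw [E8, E_qExpansion_coeff _ ⟨4, rfl⟩, coeff_map, coeff_E8Z,
    show bernoulli 8 = -1 / 30 by decide +kernel]
  split_ifs with hn
  · simp
  · simp only [eq_intCast]
    push_cast
    ring

/-- `E₄²` as a form of weight `8`. -/
noncomputable def E4sq : ModularForm 𝒮ℒ ((8 : ℕ) : ℤ) :=
  ModularForm.mcast (by decide) (E₄.pow 2)

theorem qExpansion_E4sq : qExpansion 1 E4sq = qExpansion 1 E₄ ^ 2 := by
  simp only [E4sq, coe_mcast, ModularForm.qExpansion_pow one_pos one_mem_strictPeriods_SL]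

theorem E4sq_eq_E8 : E4sq = E8 := by
  rw [← sub_eq_zero]
  apply sturm_bound_levelOne_nat
  have h0 : (qExpansion 1 (E4sq - E8)).coeff 0 = 0 := by
    rw [ModularForm.qExpansion_sub one_pos one_mem_strictPeriods_SL, map_sub, qExpansion_E4sq,
      qExpansion_E8, qExpansion_E4, ← map_pow, coeff_map, coeff_map, coeff_E8Z]
    have : coeff 0 (E4Z ^ 2) = 1 := by
      rw [coeff_zero_eq_constantCoeff_apply, map_pow, constantCoeff_E4Z, one_pow]
    rw [this]
    simp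
  have h1 : 1 ≤ (qExpansion 1 (E4sq - E8)).order :=
    one_le_order_iff_constCoeff_eq_zero.2 (by rwa [← coeff_zero_eq_constantCoeff_apply])
  have h2 : ((8 / 12 : ℕ) : ℕ∞) = 0 := by norm_num
  rw [h2]
  exact lt_of_lt_of_le (by norm_num) h1

/-- `E₄² = E₈` on integral q-expansions. -/
theorem E4Z_sq : E4Z ^ 2 = E8Z := by
  have h := congrArg (fun f : ModularForm 𝒮ℒ ((8 : ℕ) : ℤ) => qExpansion 1 f) E4sq_eq_E8
  simp only [qExpansion_E4sq, qExpansion_E8, qExpansion_E4, ← map_pow] at h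
  have hinj : Function.Injective (PowerSeries.map (Int.castRingHom ℂ)) := by
    intro f g hfg
    ext n
    have := congrArg (coeff n) hfg
    simpa using this
  exact hinj h

theorem natCast_mul_cancel {n : ℕ} (hn : n ≠ 0) {f g : PowerSeries ℤ}
    (h : (n : PowerSeries ℤ) * f = (n : PowerSeries ℤ) * g) : f = g := by
  ext k
  have h1 := congrArg (coeff k) h
  rw [show (n : PowerSeries ℤ) = C ((n : ℕ) : ℤ) from (map_natCast C n).symm, coeff_C_mul,
    coeff_C_mul] at h1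
  exact mul_left_cancel₀ (by exact_mod_cast hn) h1

/-- `σ₃ + 120 σ₃ * σ₃ = σ₇` (convolution form). -/
theorem sigma_three_sq : sigmaSeries 3 + 120 * sigmaSeries 3 ^ 2 = sigmaSeries 7 := by
  have h := E4Z_sq
  unfold E4Z E8Z at h
  have h2 : (480 : PowerSeries ℤ) * (sigmaSeries 3 + 120 * sigmaSeries 3 ^ 2) =
      480 * sigmaSeries 7 := by linear_combination h
  exact natCast_mul_cancel (n := 480) (by norm_num) (by exact_mod_cast h2)

/-! ### The divisor-wise congruence -/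

theorem dvd_aux (d : ℕ) :
    (360 : ℤ) ∣ 71 * (d : ℤ) ^ 3 - 70 * (d : ℤ) ^ 5 - (d : ℤ) ^ 7 := by
  have key : ∀ m : ℕ, (∀ x : ZMod m, 71 * x ^ 3 - 70 * x ^ 5 - x ^ 7 = 0) →
      ((m : ℕ) : ℤ) ∣ 71 * (d : ℤ) ^ 3 - 70 * (d : ℤ) ^ 5 - (d : ℤ) ^ 7 := by
    intro m h
    have h1 := h (d : ZMod m)
    apply (ZMod.intCast_zmod_eq_zero_iff_dvd
      (71 * (d : ℤ) ^ 3 - 70 * (d : ℤ) ^ 5 - (d : ℤ) ^ 7) m).mp
    push_cast
    exact h1
  have h8 := key 8 (by decide)
  have h9 := key 9 (by decide)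
  have h5 := key 5 (by decide)
  have c1 : IsCoprime ((8 : ℕ) : ℤ) ((9 : ℕ) : ℤ) := by
    rw [Int.isCoprime_iff_gcd_eq_one]; decide
  have h72 := c1.mul_dvd h8 h9
  have c2 : IsCoprime (((8 : ℕ) : ℤ) * ((9 : ℕ) : ℤ)) ((5 : ℕ) : ℤ) := by
    rw [Int.isCoprime_iff_gcd_eq_one]; decide
  have h360 := c2.mul_dvd h72 h5
  norm_num at h360
  exact h360

theorem dvd_sigma (n : ℕ) :
    (360 : ℤ) ∣ 71 * (σ 3 n : ℤ) - 70 * (σ 5 n : ℤ) - (σ 7 n : ℤ) := by
  rw [sigma_apply, sigma_apply, sigma_apply]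
  push_cast
  rw [Finset.mul_sum, Finset.mul_sum, ← Finset.sum_sub_distrib, ← Finset.sum_sub_distrib]
  exact Finset.dvd_sum fun d _ => dvd_aux d

/-- The integer series `(71 σ₃ - 70 σ₅ - σ₇)/360`. -/
noncomputable def rSeries : PowerSeries ℤ :=
  PowerSeries.mk fun n => (71 * (σ 3 n : ℤ) - 70 * (σ 5 n : ℤ) - (σ 7 n : ℤ)) / 360

theorem mul_rSeries :
    360 * rSeries = 71 * sigmaSeries 3 - 70 * sigmaSeries 5 - sigmaSeries 7 := by
  ext n
  have h360 : (360 : PowerSeries ℤ) = C (360 : ℤ) := (map_ofNat C 360).symm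
  have h71 : (71 : PowerSeries ℤ) = C (71 : ℤ) := (map_ofNat C 71).symm
  have h70 : (70 : PowerSeries ℤ) = C (70 : ℤ) := (map_ofNat C 70).symm
  rw [h360, h71, h70, map_sub, map_sub, coeff_C_mul, coeff_C_mul, coeff_C_mul, coeff_sigmaSeries,
    coeff_sigmaSeries, coeff_sigmaSeries, rSeries, coeff_mk]
  exact Int.mul_ediv_cancel' (dvd_sigma n)

/-! ### The Artin–Schreier relation -/

/-- `Y = (E₄ - 1)/3 = 80 ∑ σ₃(n) qⁿ`. -/
noncomputable def YZ : PowerSeries ℤ := 80 * sigmaSeries 3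

theorem E4Z_eq : E4Z = 1 + 3 * YZ := by
  unfold E4Z YZ
  ring

theorem constantCoeff_YZ : constantCoeff YZ = 0 := by
  rw [YZ, map_mul, constantCoeff_sigmaSeries, mul_zero]

/-- `σ₃ - σ₃² - (5σ₃ + 7σ₅)/12 = 3 r`. -/
theorem key_identity : sigmaSeries 3 - sigmaSeries 3 ^ 2 - cSeries = 3 * rSeries := by
  have h1 := sigma_three_sq
  have h2 := twelve_mul_cSeries
  have h3 := mul_rSeries
  have h : (120 : PowerSeries ℤ) * (sigmaSeries 3 - sigmaSeries 3 ^ 2 - cSeries) =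
      120 * (3 * rSeries) := by
    linear_combination -h1 - 10 * h2 - h3
  exact natCast_mul_cancel (n := 120) (by norm_num) (by exact_mod_cast h)

/-- The explicit cofactor of the Artin–Schreier relation. -/
noncomputable def asCofactor : PowerSeries ℤ :=
  168000 * sigmaSeries 3 ^ 3 + 49 * sigmaSeries 5 ^ 2 - 27 * sigmaSeries 3 -
    33 * sigmaSeries 3 ^ 2 + rSeries

/-- **Artin–Schreier relation**: `Y³ - Y - Δ = 3 R` in `ℤ⟦q⟧`. -/
theorem artinSchreier_eq : YZ ^ 3 - YZ - DeltaZ = 3 * asCofactor := by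
  have h := key_identity
  unfold YZ DeltaZ asCofactor
  linear_combination h

theorem artinSchreier : ∃ R : PowerSeries ℤ, YZ ^ 3 - YZ - DeltaZ = 3 * R :=
  ⟨asCofactor, artinSchreier_eq⟩

/-! ### Reduction modulo `3` -/

/-- The reduction of `Y` modulo `3`. -/
noncomputable def Ybar : PowerSeries (ZMod 3) := YZ.map (Int.castRingHom (ZMod 3))

/-- The reduction of `Δ` modulo `3`. -/
noncomputable def DeltaBar : PowerSeries (ZMod 3) := DeltaZ.map (Int.castRingHom (ZMod 3))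

theorem map_three_zmod : PowerSeries.map (Int.castRingHom (ZMod 3)) (3 : PowerSeries ℤ) = 0 := by
  rw [show (3 : PowerSeries ℤ) = C (3 : ℤ) from (map_ofNat C 3).symm, map_C]
  have : (Int.castRingHom (ZMod 3)) 3 = 0 := by decide
  rw [this, _root_.map_zero]

/-- **Artin–Schreier relation modulo `3`**: `Ȳ³ - Ȳ = Δ̄`. -/
theorem artinSchreier_zmod : Ybar ^ 3 - Ybar = DeltaBar := by
  have h := congrArg (PowerSeries.map (Int.castRingHom (ZMod 3))) artinSchreier_eq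
  simp only [map_sub, map_pow, map_mul, map_three_zmod, zero_mul] at h
  rw [Ybar, DeltaBar]
  exact sub_eq_zero.1 h

/-- `E₄ ≡ 1 (mod 3)`. -/
theorem map_E4Z_zmod : E4Z.map (Int.castRingHom (ZMod 3)) = 1 := by
  rw [E4Z_eq, map_add, map_mul, map_three_zmod, zero_mul, add_zero, map_one]

theorem constantCoeff_Ybar : constantCoeff Ybar = 0 := by
  rw [Ybar, ← coeff_zero_eq_constantCoeff_apply, coeff_map, coeff_zero_eq_constantCoeff_apply,
    constantCoeff_YZ, _root_.map_zero]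

theorem coeff_one_DeltaBar : coeff 1 DeltaBar = 1 := by
  rw [DeltaBar, coeff_map, coeff_one_DeltaZ, map_one]

theorem coeff_zero_DeltaBar : coeff 0 DeltaBar = 0 := by
  rw [DeltaBar, coeff_map, coeff_zero_DeltaZ, _root_.map_zero]

end Fermat.Agent.S16.Three
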