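/-
S16, block U3: the Artin–Schreier relation against `jqModC` over a field of characteristic 3.
`Yk k` = the reduction of `Y = (E₄ - 1)/3` as a Laurent series over `k`;
`(Yk k ^ 3 - Yk k) * jqModC k = 1`, hence `Yk k ∉ k(j)`.
-/
import Mathlib
import Fermat.Agent.S16.Three.ArtinSchreier
import Fermat.Agent.S16.Three.ASField
import Fermat.Agent.S16.U5.Level1Series
import Fermat.Agent.S28.Laurent

set_option autoImplicit false

open PowerSeries

namespace Fermat.Agent.S16.Three

noncomputable section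

open Fermat.Agent.S23.IntSeries ModularCurve

/-- The S23 integer series of `E₄` is the Prelude's `eisenstein4`. -/
theorem E4Z_eq_eisenstein4 : E4Z = ModularCurve.eisenstein4 :=
  Fermat.Agent.S16.U5.map_castC_injective
    (Fermat.Agent.S23.IntSeries.qExpansion_E4.symm.trans Fermat.Agent.S16.U5.qExpansion_E4)

theorem E6Z_eq_e6 : E6Z = Fermat.Agent.S16.U5.e6 :=
  Fermat.Agent.S16.U5.map_castC_injective
    (Fermat.Agent.S23.IntSeries.qExpansion_E6.symm.trans Fermat.Agent.S16.U5.qExpansion_E6)

/-- The S23 integer series of `Δ` is `q ∏ (1 - qⁿ)²⁴`. -/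
theorem DeltaZ_eq : DeltaZ = PowerSeries.X * ModularCurve.dedekindEtaUnit := by
  have h1 := E4Z_cube_sub_E6Z_sq
  have h2 := Fermat.Agent.S16.U5.e4_cube_sub_e6_sq
  rw [E4Z_eq_eisenstein4, E6Z_eq_e6] at h1
  rw [h1] at h2
  have h1728 : (1728 : PowerSeries ℤ) = PowerSeries.C (1728 : ℤ) := (map_ofNat _ 1728).symm
  rw [h1728] at h2
  have hne : (PowerSeries.C (1728 : ℤ) : PowerSeries ℤ) ≠ 0 := by
    intro h
    have := congrArg PowerSeries.constantCoeff h
    rw [PowerSeries.constantCoeff_C, map_zero] at this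
    norm_num at this
  exact mul_left_cancel₀ hne h2

variable (k : Type*) [Field k]

/-- The reduction of `Y = (E₄ - 1)/3`, as a power series over `k`. -/
def YkS : PowerSeries k := YZ.map (Int.castRingHom k)

/-- The reduction of `Y = (E₄ - 1)/3`, as a Laurent series over `k`. -/
def Yk : LaurentSeries k := HahnSeries.ofPowerSeries ℤ k (YkS k)

variable [CharP k 3]

theorem map_three_eq_zero : PowerSeries.map (Int.castRingHom k) (3 : PowerSeries ℤ) = 0 := by
  rw [show (3 : PowerSeries ℤ) = C (3 : ℤ) from (map_ofNat C 3).symm, map_C]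
  have : (Int.castRingHom k) 3 = 0 := by
    simpa using (CharP.cast_eq_zero k 3)
  rw [this, _root_.map_zero]

theorem map_E4Z_eq_one : E4Z.map (Int.castRingHom k) = 1 := by
  rw [E4Z_eq, map_add, map_mul, map_three_eq_zero, zero_mul, add_zero, map_one]

theorem artinSchreier_map :
    YkS k ^ 3 - YkS k = DeltaZ.map (Int.castRingHom k) := by
  have h := congrArg (PowerSeries.map (Int.castRingHom k)) artinSchreier_eq
  simp only [map_sub, map_pow, map_mul, map_three_eq_zero, zero_mul] at h
  rw [YkS]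
  exact sub_eq_zero.1 h

/-- **Artin–Schreier against `j`**: `(Ȳ³ - Ȳ) j̄ = 1` in `k((q))`, `char k = 3`. -/
theorem Yk_artinSchreier : (Yk k ^ 3 - Yk k) * jqModC k = 1 := by
  have hY : Yk k ^ 3 - Yk k =
      HahnSeries.ofPowerSeries ℤ k (DeltaZ.map (Int.castRingHom k)) := by
    rw [Yk, ← map_pow, ← map_sub, artinSchreier_map]
  have hj : jNum.map (Int.castRingHom k) = dedekindEtaUnitInv.map (Int.castRingHom k) := by
    rw [jNum, map_mul, map_pow, ← E4Z_eq_eisenstein4, map_E4Z_eq_one, one_pow, one_mul]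
  rw [hY, jqModC, hj, DeltaZ_eq, map_mul, map_mul, PowerSeries.map_X,
    HahnSeries.ofPowerSeries_X]
  have h1 : (HahnSeries.single (1 : ℤ) (1 : k)) * HahnSeries.single (-1 : ℤ) (1 : k) = 1 := by
    rw [HahnSeries.single_mul_single]
    simp
  have h2 : HahnSeries.ofPowerSeries ℤ k (dedekindEtaUnit.map (Int.castRingHom k)) *
      HahnSeries.ofPowerSeries ℤ k (dedekindEtaUnitInv.map (Int.castRingHom k)) = 1 := by
    rw [← map_mul, ← map_mul, dedekindEtaUnit_mul_inv, map_one, map_one]
  calc HahnSeries.single 1 1 *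
        HahnSeries.ofPowerSeries ℤ k (dedekindEtaUnit.map (Int.castRingHom k)) *
        (HahnSeries.single (-1) 1 *
          HahnSeries.ofPowerSeries ℤ k (dedekindEtaUnitInv.map (Int.castRingHom k)))
      = (HahnSeries.single (1 : ℤ) (1 : k) * HahnSeries.single (-1 : ℤ) (1 : k)) *
        (HahnSeries.ofPowerSeries ℤ k (dedekindEtaUnit.map (Int.castRingHom k)) *
          HahnSeries.ofPowerSeries ℤ k (dedekindEtaUnitInv.map (Int.castRingHom k))) := by ring
    _ = 1 := by rw [h1, h2, one_mul]

/-- `Ȳ` is not a rational function of `j̄`. -/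
theorem Yk_not_mem_adjoin : Yk k ∉ IntermediateField.adjoin k {jqModC k} :=
  not_mem_adjoin_of_artinSchreier Fermat.Agent.S28.transcendental_jqModC (Yk_artinSchreier k)

end

end Fermat.Agent.S16.Three
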