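/-
S16, blocks U3/U5: the `l`-integral rationals `ℤ_(l) ⊂ ℚ` and the reduction `ℤ_(l) → k`
(`x ↦ num / den`) into a field of characteristic `l`; coefficientwise reduction of rational
sequences.
-/
import Mathlib

set_option autoImplicit false

namespace Fermat.Agent.S16.Three

/-- The subring `ℤ_(l)` of `ℚ`: rationals whose denominator is prime to `l`. -/
def Zloc (l : ℕ) [hl : Fact l.Prime] : Subring ℚ where
  carrier := {x | ¬ l ∣ x.den}
  mul_mem' {a b} ha hb := by
    intro h
    rcases (Nat.Prime.dvd_mul hl.out).1 (h.trans (Rat.mul_den_dvd a b)) with h | h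
    · exact ha h
    · exact hb h
  one_mem' := by
    show ¬ l ∣ (1 : ℚ).den
    rw [Rat.den_one, Nat.dvd_one]
    exact hl.out.one_lt.ne'
  add_mem' {a b} ha hb := by
    intro h
    rcases (Nat.Prime.dvd_mul hl.out).1 (h.trans (Rat.add_den_dvd a b)) with h | h
    · exact ha h
    · exact hb h
  zero_mem' := by
    show ¬ l ∣ (0 : ℚ).den
    rw [Rat.den_zero, Nat.dvd_one]
    exact hl.out.one_lt.ne'
  neg_mem' {a} ha := by
    show ¬ l ∣ (-a).den
    rwa [Rat.neg_den]

theorem mem_Zloc {l : ℕ} [Fact l.Prime] {x : ℚ} : x ∈ Zloc l ↔ ¬ l ∣ x.den := Iff.rfl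

theorem intCast_mem_Zloc (l : ℕ) [Fact l.Prime] (n : ℤ) : (n : ℚ) ∈ Zloc l :=
  intCast_mem _ n

/-- `a / b ∈ ℤ_(l)` as soon as `l ∤ b`. -/
theorem mem_Zloc_of_mul_eq {l : ℕ} [hl : Fact l.Prime] {x : ℚ} (a b : ℤ) (hb : ¬ (l : ℤ) ∣ b)
    (h : x * b = a) : x ∈ Zloc l := by
  have hb0 : b ≠ 0 := by
    rintro rfl
    exact hb (dvd_zero _)
  have hbq : (b : ℚ) ≠ 0 := by exact_mod_cast hb0
  have hx : x = Rat.divInt a b := by
    rw [Rat.divInt_eq_div, eq_div_iff hbq, h]
  rw [mem_Zloc, hx]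
  intro hd
  apply hb
  have h1 : ((Rat.divInt a b).den : ℤ) ∣ b := Rat.den_dvd a b
  exact (Int.natCast_dvd_natCast.2 hd).trans h1

section Rho

variable (k : Type*) [Field k] (l : ℕ) [CharP k l]

theorem num_eq_mul_den (x : ℚ) : (x.num : ℚ) = x * x.den := by
  have hden : (x.den : ℚ) ≠ 0 := by exact_mod_cast x.den_ne_zero
  rw [← div_eq_iff hden]
  exact Rat.num_div_den x

theorem natCast_den_ne_zero {x : ℚ} (hx : ¬ l ∣ x.den) : (x.den : k) ≠ 0 := by
  rwa [Ne, CharP.cast_eq_zero_iff k l]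

/-- If `x * b = a` with `b ≠ 0` in `k`, then `num x / den x = a / b` in `k`. -/
theorem num_div_den_eq {x : ℚ} (hx : ¬ l ∣ x.den) (a b : ℤ) (hb : (b : k) ≠ 0)
    (h : x * b = a) : ((x.num : k) / (x.den : k)) = (a : k) / (b : k) := by
  rw [div_eq_div_iff (natCast_den_ne_zero k l hx) hb]
  have h1 : (x.num : ℚ) * b = a * x.den := by
    rw [num_eq_mul_den x, ← h]
    ring
  have h2 : x.num * b = a * (x.den : ℤ) := by exact_mod_cast h1
  have h3 := congrArg (Int.cast : ℤ → k) h2
  push_cast at h3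
  exact h3

variable [hl : Fact l.Prime]

/-- The reduction `ℤ_(l) → k`, `x ↦ num / den`. -/
noncomputable def rho : Zloc l →+* k where
  toFun x := ((x : ℚ).num : k) / ((x : ℚ).den : k)
  map_one' := by
    show (((1 : ℚ).num : ℤ) : k) / (((1 : ℚ).den : ℕ) : k) = 1
    simp
  map_zero' := by
    show (((0 : ℚ).num : ℤ) : k) / (((0 : ℚ).den : ℕ) : k) = 0
    simp
  map_mul' x y := by
    have hx := natCast_den_ne_zero k l x.2
    have hy := natCast_den_ne_zero k l y.2
    have key := num_div_den_eq k l (x := (x : ℚ) * (y : ℚ)) (x * y).2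
      ((x : ℚ).num * (y : ℚ).num) (((x : ℚ).den : ℤ) * ((y : ℚ).den : ℤ))
      (by push_cast; exact mul_ne_zero hx hy)
      (by
        push_cast
        rw [num_eq_mul_den (x : ℚ), num_eq_mul_den (y : ℚ)]
        ring)
    show ((((x * y : Zloc l) : ℚ)).num : k) / ((((x * y : Zloc l) : ℚ)).den : k) = _
    rw [Subring.coe_mul, key]
    push_cast
    rw [mul_div_mul_comm]
  map_add' x y := by
    have hx := natCast_den_ne_zero k l x.2
    have hy := natCast_den_ne_zero k l y.2
    have key := num_div_den_eq k l (x := (x : ℚ) + (y : ℚ)) (x + y).2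
      ((x : ℚ).num * ((y : ℚ).den : ℤ) + (y : ℚ).num * ((x : ℚ).den : ℤ))
      (((x : ℚ).den : ℤ) * ((y : ℚ).den : ℤ))
      (by push_cast; exact mul_ne_zero hx hy)
      (by
        push_cast
        rw [num_eq_mul_den (x : ℚ), num_eq_mul_den (y : ℚ)]
        ring)
    show ((((x + y : Zloc l) : ℚ)).num : k) / ((((x + y : Zloc l) : ℚ)).den : k) = _
    rw [Subring.coe_add, key]
    push_cast
    rw [div_add_div _ _ hx hy]
    congr 1
    ring

theorem rho_apply (x : Zloc l) :
    rho k l x = ((x : ℚ).num : k) / ((x : ℚ).den : k) := rfl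

/-- Coefficientwise reduction of a sequence of rationals. -/
noncomputable def redSeries (r : ℕ → ℚ) : PowerSeries k :=
  PowerSeries.mk fun n => ((r n).num : k) / ((r n).den : k)

theorem redSeries_eq_map (r : ℕ → ℚ) (F : PowerSeries (Zloc l))
    (h : ∀ n, r n = ((PowerSeries.coeff n F : Zloc l) : ℚ)) :
    redSeries k r = F.map (rho k l) := by
  ext n
  rw [redSeries, PowerSeries.coeff_mk, PowerSeries.coeff_map, rho_apply, h n]

theorem redSeries_intCast (F : PowerSeries ℤ) :
    redSeries k (fun n => ((PowerSeries.coeff n F : ℤ) : ℚ)) = F.map (Int.castRingHom k) := by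
  ext n
  rw [redSeries, PowerSeries.coeff_mk, PowerSeries.coeff_map, Rat.num_intCast, Rat.den_intCast]
  simp

end Rho

/-- A rational power series with `l`-integral coefficients, as a series over `ℤ_(l)`. -/
noncomputable def liftZloc (l : ℕ) [Fact l.Prime] (f : PowerSeries ℚ)
    (hf : ∀ n, ¬ l ∣ (PowerSeries.coeff n f).den) : PowerSeries (Zloc l) :=
  PowerSeries.mk fun n => ⟨PowerSeries.coeff n f, hf n⟩

theorem map_subtype_liftZloc (l : ℕ) [Fact l.Prime] (f : PowerSeries ℚ)
    (hf : ∀ n, ¬ l ∣ (PowerSeries.coeff n f).den) :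
    (liftZloc l f hf).map (Zloc l).subtype = f := by
  ext n
  rw [PowerSeries.coeff_map, liftZloc, PowerSeries.coeff_mk]
  rfl

theorem coeff_map_subtype_mem (l : ℕ) [Fact l.Prime] (F : PowerSeries (Zloc l)) (n : ℕ) :
    ¬ l ∣ (PowerSeries.coeff n (F.map (Zloc l).subtype)).den := by
  rw [PowerSeries.coeff_map]
  exact (PowerSeries.coeff n F).2

end Fermat.Agent.S16.Three
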