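/-
S16, block U3: if `G = 1 + 9 T` has `3`-integral rational coefficients, then the series
`K = (G² - E₄)/3 = 6 T + 27 T² - Y` has `3`-integral coefficients and reduces to `-Ȳ` modulo `3`.
-/
import Mathlib
import Fermat.Agent.S16.Three.JBar
import Fermat.Agent.S16.Three.ZLocal

set_option autoImplicit false

open PowerSeries

namespace Fermat.Agent.S16.Three

noncomputable section

open Fermat.Agent.S23.IntSeries

instance factPrimeThree : Fact (Nat.Prime 3) := ⟨Nat.prime_three⟩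

/-- The rational series `K = (G² - E₄)/3` attached to the coefficient sequence `r` of `G`. -/
def Kq (r : ℕ → ℚ) : PowerSeries ℚ :=
  C (3⁻¹ : ℚ) * ((PowerSeries.mk r) ^ 2 - E4Z.map (Int.castRingHom ℚ))

/-- The series `T = (G - 1)/9`. -/
def Tq (r : ℕ → ℚ) : PowerSeries ℚ := PowerSeries.mk fun n => if n = 0 then 0 else r n / 9

theorem coeff_Tq_mem (r : ℕ → ℚ) (hint : ∀ n, ¬ 3 ∣ (r n).den)
    (h9 : ∀ n, 1 ≤ n → ((3 : ℤ) ^ 2) ∣ (r n).num) (n : ℕ) :
    ¬ 3 ∣ (coeff n (Tq r)).den := by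
  rw [Tq, coeff_mk]
  split_ifs with hn
  · rw [Rat.den_zero, Nat.dvd_one]; norm_num
  · obtain ⟨m, hm⟩ := h9 n (Nat.one_le_iff_ne_zero.2 hn)
    have hmem : r n / 9 ∈ Zloc 3 := by
      refine mem_Zloc_of_mul_eq m ((r n).den : ℤ) ?_ ?_
      · intro h
        exact hint n (Int.natCast_dvd_natCast.1 h)
      · have h1 := num_eq_mul_den (r n)
        rw [hm] at h1
        push_cast at h1
        rw [Int.cast_natCast]
        linarith
    exact hmem

theorem mk_eq_one_add (r : ℕ → ℚ) (h0 : r 0 = 1) :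
    PowerSeries.mk r = 1 + C (9 : ℚ) * Tq r := by
  ext n
  rw [coeff_mk, map_add, coeff_C_mul, Tq, coeff_mk, coeff_one]
  split_ifs with hn
  · rw [hn, h0]; ring
  · ring

theorem E4q_eq : E4Z.map (Int.castRingHom ℚ) = 1 + C (3 : ℚ) * YZ.map (Int.castRingHom ℚ) := by
  rw [E4Z_eq, map_add, map_mul, map_one,
    show (3 : PowerSeries ℤ) = C (3 : ℤ) from (map_ofNat C 3).symm, map_C]
  simp

theorem Kq_eq (r : ℕ → ℚ) (h0 : r 0 = 1) :
    Kq r = C (6 : ℚ) * Tq r + C (27 : ℚ) * Tq r ^ 2 - YZ.map (Int.castRingHom ℚ) := by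
  have h3 : (C (3⁻¹ : ℚ) : PowerSeries ℚ) * 3 = 1 := by
    rw [show (3 : PowerSeries ℚ) = C (3 : ℚ) from (map_ofNat C 3).symm, ← map_mul]; norm_num
  rw [Kq, mk_eq_one_add r h0, E4q_eq, show (C (6 : ℚ) : PowerSeries ℚ) = 6 from map_ofNat C 6,
    show (C (27 : ℚ) : PowerSeries ℚ) = 27 from map_ofNat C 27,
    show (C (9 : ℚ) : PowerSeries ℚ) = 9 from map_ofNat C 9,
    show (C (3 : ℚ) : PowerSeries ℚ) = 3 from map_ofNat C 3]
  linear_combination
    (6 * Tq r + 27 * Tq r ^ 2 - YZ.map (Int.castRingHom ℚ)) * h3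

section Reduction

variable (k : Type*) [Field k] [CharP k 3]

theorem map_rho_comp_intCast :
    (rho k 3).comp (Int.castRingHom (Zloc 3)) = Int.castRingHom k :=
  RingHom.ext_int _ _

/-- `K = (G² - E₄)/3` has `3`-integral coefficients reducing to `-Ȳ`. -/
theorem Kq_integral_and_reduction (r : ℕ → ℚ) (hint : ∀ n, ¬ 3 ∣ (r n).den) (h0 : r 0 = 1)
    (h9 : ∀ n, 1 ≤ n → ((3 : ℤ) ^ 2) ∣ (r n).num) :
    (∀ n, ¬ 3 ∣ (coeff n (Kq r)).den) ∧
      redSeries k (fun n => coeff n (Kq r)) = - YkS k := by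
  set T' : PowerSeries (Zloc 3) := liftZloc 3 (Tq r) (coeff_Tq_mem r hint h9) with hT'
  set Y' : PowerSeries (Zloc 3) := YZ.map (Int.castRingHom (Zloc 3)) with hY'
  set K' : PowerSeries (Zloc 3) :=
    C (6 : Zloc 3) * T' + C (27 : Zloc 3) * T' ^ 2 - Y' with hK'
  have hYmap : Y'.map (Zloc 3).subtype = YZ.map (Int.castRingHom ℚ) := by
    ext n
    simp [hY']
  have hKmap : K'.map (Zloc 3).subtype = Kq r := by
    rw [Kq_eq r h0, hK', map_sub, map_add, map_mul, map_mul, map_pow, map_C, map_C,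
      map_subtype_liftZloc, hYmap]
    rfl
  refine ⟨fun n => ?_, ?_⟩
  · rw [← hKmap]
    exact coeff_map_subtype_mem 3 K' n
  · rw [redSeries_eq_map k 3 _ K' (fun n => by rw [← hKmap, coeff_map]; rfl)]
    have h6 : rho k 3 (6 : Zloc 3) = 0 := by
      rw [map_ofNat]
      have : ((6 : ℕ) : k) = 0 := (CharP.cast_eq_zero_iff k 3 6).2 (by norm_num)
      exact_mod_cast this
    have h27 : rho k 3 (27 : Zloc 3) = 0 := by
      rw [map_ofNat]
      have : ((27 : ℕ) : k) = 0 := (CharP.cast_eq_zero_iff k 3 27).2 (by norm_num)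
      exact_mod_cast this
    have hY : Y'.map (rho k 3) = YkS k := by
      rw [hY', YkS]
      ext n
      rw [coeff_map, coeff_map, coeff_map]
      exact congrArg (fun f : ℤ →+* k => f (coeff n YZ)) (map_rho_comp_intCast k)
    rw [hK', map_sub, map_add, map_mul, map_mul, map_C, map_C, h6, h27, map_zero, zero_mul,
      zero_mul, zero_add, zero_sub, hY]

end Reduction

end

end Fermat.Agent.S16.Three
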