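/-
S16, block U3 (final glue): `NoUnitForm p 3 2` — there is no weight-2 form on `Γ₀(p)` with
`3`-integral rational `q`-expansion congruent to `1` modulo `9`.

Inputs, kept as explicit hypotheses in `noUnitForm_three_of`:
* `RatioMemFk 3 p k` (helper19, `S16/RatioForms`): the reduction of a ratio of two forms of the
  same weight with `l`-integral rational `q`-expansions lies in the function field mod `l`;
* `ConjDescent p k` (helper21, `S16/Three/Conjugates`): an element of the function field of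
  `X₀(p)` over `k` that is a root of a polynomial over `k(j)` splitting in `k((q))` lies in `k(j)`.
-/
import Mathlib
import Fermat.Agent.S16.Defs
import Fermat.Agent.S16.Three.KSeries
import Fermat.Agent.S28.Hauptmodul.MFSeries
import Fermat.Prelude.Def_ModularCurve_X0ModL

set_option autoImplicit false

open UpperHalfPlane ModularForm ModularFormClass CongruenceSubgroup EisensteinSeries ModularCurve
open scoped MatrixGroups

namespace Fermat.Agent.S16.Three

noncomputable section

open Fermat.Agent.S23.IntSeries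

/-- (F-R), the shape consumed here. -/
def RatioMemFk (l N : ℕ) (k : Type) [Field k] : Prop :=
  ∀ (wt : ℤ) (f g : ModularForm (Gamma0 N) wt) (rf rg : ℕ → ℚ),
    (∀ n, qCoeff f n = (rf n : ℂ)) → (∀ n, qCoeff g n = (rg n : ℂ)) →
    (∀ n, ¬ l ∣ (rf n).den) → (∀ n, ¬ l ∣ (rg n).den) → ¬ (l : ℤ) ∣ (rg 0).num →
    HahnSeries.ofPowerSeries ℤ k (redSeries k rf) / HahnSeries.ofPowerSeries ℤ k (redSeries k rg)
      ∈ modularFunctionFieldFullC k N

/-- (F-L) + embeddings, the shape consumed here. -/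
def ConjDescent (p : ℕ) (k : Type) [Field k] : Prop :=
  ∀ β ∈ modularFunctionFieldFullC k p,
    ∀ P : Polynomial ↥(IntermediateField.adjoin k {jqModC k}), P ≠ 0 →
      Polynomial.aeval β P = 0 →
      (P.map (algebraMap ↥(IntermediateField.adjoin k {jqModC k}) (LaurentSeries k))).Splits →
      β ∈ IntermediateField.adjoin k {jqModC k}

section Forms

variable {p : ℕ}

/-- `K = (G² - E₄)/3` as a weight-4 form on `Γ₀(p)`. -/
def Kform (G : ModularForm (Gamma0 p) 2) : ModularForm (Gamma0 p) 4 :=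
  (3 : ℂ)⁻¹ • (ModularForm.mcast (by norm_num) (G.mul G) - Fermat.Agent.S28.ofLevelOne p E₄)

theorem qExpansion_Kform (G : ModularForm (Gamma0 p) 2) :
    qExpansion 1 (Kform G) = (3 : ℂ)⁻¹ • ((qExpansion 1 G) ^ 2 - qExpansion 1 E₄) := by
  have h1 := Fermat.Agent.S28.one_mem_strictPeriods_Gamma0 p
  set A : ModularForm (Gamma0 p) 4 := ModularForm.mcast (by norm_num) (G.mul G) with hA
  set B : ModularForm (Gamma0 p) 4 := Fermat.Agent.S28.ofLevelOne p E₄ with hB
  have e1 : (Kform G : ℍ → ℂ) = (3 : ℂ)⁻¹ • ((A - B : ModularForm (Gamma0 p) 4) : ℍ → ℂ) := rfl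
  have e2 : ((A - B : ModularForm (Gamma0 p) 4) : ℍ → ℂ) = (A : ℍ → ℂ) - (B : ℍ → ℂ) := rfl
  rw [e1, ModularForm.qExpansion_smul one_pos h1 _ (A - B), e2,
    ModularForm.qExpansion_sub one_pos h1 A B, hA, ModularForm.qExpansion_mcast,
    ModularForm.qExpansion_mul one_pos h1, hB, Fermat.Agent.S28.qExpansion_ofLevelOne, sq]

theorem qExpansion_eq_map_of_qCoeff {wt : ℤ} (G : ModularForm (Gamma0 p) wt) (r : ℕ → ℚ)
    (hG : ∀ n, qCoeff G n = (r n : ℂ)) :
    qExpansion 1 G = (PowerSeries.mk r).map (algebraMap ℚ ℂ) := by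
  ext n
  rw [PowerSeries.coeff_map, PowerSeries.coeff_mk]
  exact hG n

theorem qExpansion_E4_rat :
    qExpansion 1 E₄ = (E4Z.map (Int.castRingHom ℚ)).map (algebraMap ℚ ℂ) := by
  rw [Fermat.Agent.S23.IntSeries.qExpansion_E4]
  ext n
  simp

theorem qCoeff_Kform (G : ModularForm (Gamma0 p) 2) (r : ℕ → ℚ)
    (hG : ∀ n, qCoeff G n = (r n : ℂ)) (n : ℕ) :
    qCoeff (Kform G) n = ((PowerSeries.coeff n (Kq r) : ℚ) : ℂ) := by
  unfold ModularFormClass.qCoeff
  rw [qExpansion_Kform, qExpansion_eq_map_of_qCoeff G r hG, qExpansion_E4_rat,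
    PowerSeries.smul_eq_C_mul, ← map_pow, ← map_sub, Kq]
  have : (PowerSeries.C (3 : ℂ)⁻¹ : PowerSeries ℂ) =
      (PowerSeries.C (3⁻¹ : ℚ)).map (algebraMap ℚ ℂ) := by
    rw [PowerSeries.map_C]
    simp
  rw [this, ← map_mul, PowerSeries.coeff_map]
  rfl

theorem qCoeff_ofLevelOne_E4 (n : ℕ) :
    qCoeff (Fermat.Agent.S28.ofLevelOne p E₄) n = (((PowerSeries.coeff n E4Z : ℤ) : ℚ) : ℂ) := by
  unfold ModularFormClass.qCoeff
  rw [Fermat.Agent.S28.qExpansion_ofLevelOne, Fermat.Agent.S23.IntSeries.qExpansion_E4,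
    PowerSeries.coeff_map]
  simp

end Forms

section Cubic

variable {R : Type*} [CommRing R] [CharP R 3]

open Polynomial in
theorem cubic_factor (Y c : R) (h : Y ^ 3 - Y = c) :
    (X ^ 3 - X - C c : R[X]) = (X - C Y) * (X - C (Y + 1)) * (X - C (Y + 2)) := by
  have h3 : (3 : R[X]) = 0 := by
    have : ((3 : ℕ) : R) = 0 := CharP.cast_eq_zero R 3
    rw [show (3 : R[X]) = C ((3 : ℕ) : R) from (map_natCast C 3).symm, this, map_zero]
  rw [← h]
  simp only [map_add, map_sub, map_pow, map_one, C_ofNat]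
  linear_combination (X ^ 2 * C Y - X * C Y ^ 2 + X ^ 2 - 2 * X * C Y - X + C Y ^ 2 + C Y) * h3

open Polynomial in
theorem cubic_splits (Y c : R) (h : Y ^ 3 - Y = c) : (X ^ 3 - X - C c : R[X]).Splits := by
  rw [cubic_factor Y c h]
  exact ((Splits.X_sub_C _).mul (Splits.X_sub_C _)).mul (Splits.X_sub_C _)

end Cubic

/-- From a unit form `G ≡ 1 mod 9`, the series `Ȳ` lies in the level-`p` function field. -/
theorem Yk_mem_fullC_of_unitForm (p : ℕ) (k : Type) [Field k] [CharP k 3]
    (hR : RatioMemFk 3 p k) (G : ModularForm (Gamma0 p) 2) (r : ℕ → ℚ)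
    (hG : ∀ n, qCoeff G n = (r n : ℂ)) (hint : ∀ n, ¬ 3 ∣ (r n).den) (h0 : r 0 = 1)
    (h9 : ∀ n, 1 ≤ n → ((3 : ℤ) ^ 2) ∣ (r n).num) :
    Yk k ∈ modularFunctionFieldFullC k p := by
  obtain ⟨hKint, hKred⟩ := Kq_integral_and_reduction k r hint h0 h9
  have hmem := hR 4 (Kform G) (Fermat.Agent.S28.ofLevelOne p E₄)
    (fun n => PowerSeries.coeff n (Kq r)) (fun n => ((PowerSeries.coeff n E4Z : ℤ) : ℚ))
    (qCoeff_Kform G r hG) qCoeff_ofLevelOne_E4 hKint
    (fun n => by rw [Rat.den_intCast, Nat.dvd_one]; norm_num)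
    (by
      rw [Rat.num_intCast, PowerSeries.coeff_zero_eq_constantCoeff_apply, constantCoeff_E4Z]
      norm_num)
  rw [hKred, redSeries_intCast, map_E4Z_eq_one, map_one, div_one, map_neg] at hmem
  have := neg_mem hmem
  rwa [neg_neg] at this

/-- **U3 from (F-R) and the Artin–Schreier descent at level `p`.** -/
theorem noUnitForm_three_of_artinSchreier (p : ℕ) (k : Type) [Field k] [CharP k 3]
    (hR : RatioMemFk 3 p k)
    (hAS : ∀ β ∈ modularFunctionFieldFullC k p,
      β ^ 3 - β ∈ IntermediateField.adjoin k {jqModC k} →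
        β ∈ IntermediateField.adjoin k {jqModC k}) : NoUnitForm p 3 2 := by
  rintro ⟨G, r, hG, hint, h0, h9⟩
  have h9' : ∀ n, 1 ≤ n → ((3 : ℤ) ^ 2) ∣ (r n).num := fun n hn => by
    have := h9 n hn
    exact_mod_cast this
  have hY := Yk_mem_fullC_of_unitForm p k hR G r hG hint h0 h9'
  have hrel : Yk k ^ 3 - Yk k = (jqModC k)⁻¹ :=
    eq_inv_of_mul_eq_one_left (Yk_artinSchreier k)
  refine Yk_not_mem_adjoin k (hAS (Yk k) hY ?_)
  rw [hrel]
  exact inv_mem (IntermediateField.subset_adjoin k _ (Set.mem_singleton _))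

/-- **U3 from its two inputs.** -/
theorem noUnitForm_three_of (p : ℕ) (k : Type) [Field k] [CharP k 3]
    (hR : RatioMemFk 3 p k) (hC : ConjDescent p k) : NoUnitForm p 3 2 := by
  rintro ⟨G, r, hG, hint, h0, h9⟩
  have h9' : ∀ n, 1 ≤ n → ((3 : ℤ) ^ 2) ∣ (r n).num := fun n hn => by
    have := h9 n hn
    exact_mod_cast this
  have hY := Yk_mem_fullC_of_unitForm p k hR G r hG hint h0 h9'
  -- the Artin–Schreier polynomial over `k(j)`
  set F := IntermediateField.adjoin k {jqModC k} with hF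
  have hj0 : jqModC k ≠ 0 := by
    intro h
    have := Yk_artinSchreier k
    rw [h, mul_zero] at this
    exact zero_ne_one this
  have hrel : Yk k ^ 3 - Yk k = (jqModC k)⁻¹ :=
    eq_inv_of_mul_eq_one_left (Yk_artinSchreier k)
  set c : F := (IntermediateField.AdjoinSimple.gen k (jqModC k))⁻¹ with hc
  have hcc : ((c : F) : LaurentSeries k) = (jqModC k)⁻¹ := by
    rw [hc]
    push_cast
    rw [IntermediateField.AdjoinSimple.coe_gen]
  set P : Polynomial F := Polynomial.X ^ 3 - Polynomial.X - Polynomial.C c with hP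
  have hP0 : P ≠ 0 := by
    intro h
    have h3 : P.coeff 3 = 1 := by
      rw [hP]
      simp [Polynomial.coeff_X]
    rw [h, Polynomial.coeff_zero] at h3
    exact zero_ne_one h3
  have hroot : Polynomial.aeval (Yk k) P = 0 := by
    rw [hP]
    simp only [map_sub, map_pow, Polynomial.aeval_X, Polynomial.aeval_C]
    rw [IntermediateField.algebraMap_apply, hcc, hrel, sub_self]
  have hsplit : (P.map (algebraMap F (LaurentSeries k))).Splits := by
    have : P.map (algebraMap F (LaurentSeries k)) =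
        Polynomial.X ^ 3 - Polynomial.X - Polynomial.C ((jqModC k)⁻¹) := by
      rw [hP]
      simp only [Polynomial.map_sub, Polynomial.map_pow, Polynomial.map_X, Polynomial.map_C]
      rw [IntermediateField.algebraMap_apply, hcc]
    rw [this]
    have : CharP (LaurentSeries k) 3 := charP_of_injective_algebraMap
      (algebraMap k (LaurentSeries k)).injective 3
    exact cubic_splits (Yk k) _ hrel
  exact Yk_not_mem_adjoin k (hC (Yk k) hY P hP0 hroot hsplit)

end

end Fermat.Agent.S16.Three
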