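/-
S16, block U3: `NoUnitForm p 3 2` for every prime `p ≠ 3`, unconditionally.
Assembly of `Main.noUnitForm_three_of_artinSchreier` with helper19's `RatioForms` (F-R) and
helper21's `Conjugates.artinSchreier_mem_adjoin_jq` (F-L), over the residue field of a valuation
subring of `AlgebraicClosure ℚ` lying over `3`.
-/
import Mathlib
import Fermat.Agent.S16.Three.Main
import Fermat.Agent.S16.Three.Conjugates
import Fermat.Agent.S16.RatioForms.Gauss
import Fermat.Agent.Gateway.ES.ResidueField
import Fermat.Agent.Lib.FrobeniusExists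

set_option autoImplicit false

open UpperHalfPlane ModularForm ModularFormClass CongruenceSubgroup ModularCurve

namespace Fermat.Agent.S16.Three

noncomputable section

theorem ratioForms_redSeries_eq (k : Type*) [Field k] (r : ℕ → ℚ) :
    Fermat.Agent.S16.RatioForms.redSeries k (PowerSeries.mk r) = redSeries k r := by
  ext n
  rw [Fermat.Agent.S16.RatioForms.coeff_redSeries, PowerSeries.coeff_mk, redSeries,
    PowerSeries.coeff_mk]
  rfl

/-- helper19's (F-R) in the shape consumed by `Main.lean`. -/
theorem ratioMemFk (l N : ℕ) [Fact l.Prime] [NeZero N] (hlN : ¬ l ∣ N)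
    {L : Type*} [Field L] [Algebra ℚ L] (A : ValuationSubring L) {k : Type} [Field k]
    (π : A →+* k) (hπ : Function.Surjective π) [IsAlgClosed k] [CharP k l] :
    RatioMemFk l N k := by
  intro wt f g rf rg hf hg hfi hgi hg0
  have hqf : qExpansion 1 f = (PowerSeries.mk rf).map (algebraMap ℚ ℂ) :=
    qExpansion_eq_map_of_qCoeff f rf hf
  have hqg : qExpansion 1 g = (PowerSeries.mk rg).map (algebraMap ℚ ℂ) :=
    qExpansion_eq_map_of_qCoeff g rg hg
  have key := Fermat.Agent.S16.RatioForms.redSeries_ratio_mem_fullC A π hπ l hlN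
    (Fermat.Agent.S16.RatioForms.isMF_of_modularForm f)
    (Fermat.Agent.S16.RatioForms.isMF_of_modularForm g)
    (PowerSeries.mk rf) (PowerSeries.mk rg) hqf hqg
    (fun n => by rw [PowerSeries.coeff_mk]; exact hfi n)
    (fun n => by rw [PowerSeries.coeff_mk]; exact hgi n)
    (by
      rw [ratioForms_redSeries_eq]
      intro h
      have h0 := congrArg (PowerSeries.coeff 0) h
      rw [redSeries, PowerSeries.coeff_mk, map_zero, div_eq_zero_iff] at h0
      rcases h0 with h0 | h0
      · exact hg0 ((CharP.intCast_eq_zero_iff k l _).1 h0)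
      · exact hgi 0 ((CharP.cast_eq_zero_iff k l _).1 h0))
  rwa [ratioForms_redSeries_eq, ratioForms_redSeries_eq] at key

/-- **Block U3.** No weight-2 form on `Γ₀(p)`, `p ≠ 3` prime, has a `3`-integral rational
`q`-expansion congruent to `1` modulo `9`. -/
theorem noUnitForm_three (p : ℕ) [hp : Fact p.Prime] (hp3 : p ≠ 3) : NoUnitForm p 3 2 := by
  obtain ⟨A, hA⟩ := Fermat.Agent.Lib.exists_valuationSubring_liesOverPrime
    (L := AlgebraicClosure ℚ) 3 Nat.prime_three
  have hchar : CharP (IsLocalRing.ResidueField A) 3 :=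
    Fermat.Agent.Gateway.ES.charP_residueField_of_liesOverPrime A hA
  have hac : IsAlgClosed (IsLocalRing.ResidueField A) :=
    Fermat.Agent.Gateway.ES.isAlgClosed_residueField A
  have : NeZero p := ⟨hp.out.ne_zero⟩
  have h3p : ¬ 3 ∣ p := fun h =>
    hp3 ((Nat.prime_dvd_prime_iff_eq Nat.prime_three hp.out).1 h).symm
  refine noUnitForm_three_of_artinSchreier p (IsLocalRing.ResidueField A)
    (ratioMemFk 3 p h3p A (IsLocalRing.residue A) IsLocalRing.residue_surjective)
    (fun β hβ hc => artinSchreier_mem_adjoin_jq p (fun h => hp3 h.symm) hβ hc)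

end

end Fermat.Agent.S16.Three
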