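/-
P-S16, block U3 (helper21): the Prop `ConjDescent p k` of `S16/Three/Main.lean`, from
`mem_adjoin_jq_of_conjugates` (`S16/Three/Conjugates.lean`).
-/
import Fermat.Agent.S16.Three.Main
import Fermat.Agent.S16.Three.Conjugates

set_option autoImplicit false

namespace Fermat.Agent.S16.Three

open ModularCurve IntermediateField Polynomial

/-- **(F-L)** in the shape consumed by `noUnitForm_three_of`: an element of the level-`p` function
field mod `ℓ` which is a root of a nonzero polynomial over `k(j)` that splits in `k((q))` lies in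
`k(j)`. -/
theorem conjDescent (ℓ : ℕ) [Fact ℓ.Prime] (p : ℕ) [Fact p.Prime] (hℓp : ℓ ≠ p) (k : Type)
    [Field k] [IsAlgClosed k] [CharP k ℓ] : ConjDescent p k := by
  intro β hβ P hP hroot hsplit
  apply mem_adjoin_jq_of_conjugates ℓ p hℓp hβ
  intro σ
  set Q : (LaurentSeries k)[X] := P.map (algebraMap ↥(k⟮jqModC k⟯) (LaurentSeries k)) with hQ
  have hQ0 : Q ≠ 0 := by
    rw [hQ, Ne, Polynomial.map_eq_zero_iff (algebraMap ↥(k⟮jqModC k⟯) (LaurentSeries k)).injective]
    exact hP
  set β' : Eth (k := k) p := ⟨qExpand k p β, qExpand_mem_Eth p hβ⟩ with hβ'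
  set y : LaurentSeries k := σ β' with hy
  -- the coefficients of `P`, expanded in `z`
  let c : ℕ → Kx k p := fun i =>
    ⟨qExpand k p ((P.coeff i : ↥(k⟮jqModC k⟯)) : LaurentSeries k),
      (qExpand_mem_Kx_iff p _).mpr (P.coeff i).2⟩
  set n := P.natDegree + 1 with hn
  -- `P(β) = 0`, expanded in `z`, inside `E`
  have hS : ∑ i ∈ Finset.range n, algebraMap (Kx k p) (Eth (k := k) p) (c i) * β' ^ i = 0 := by
    apply Subtype.ext
    have h1 : ((∑ i ∈ Finset.range n, algebraMap (Kx k p) (Eth (k := k) p) (c i) * β' ^ i :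
        Eth (k := k) p) : LaurentSeries k)
        = ∑ i ∈ Finset.range n,
            qExpand k p ((P.coeff i : ↥(k⟮jqModC k⟯)) : LaurentSeries k) * (qExpand k p β) ^ i := by
      rw [AddSubmonoidClass.coe_finsetSum]
      rfl
    rw [h1, ZeroMemClass.coe_zero]
    have h2 : aeval β P = ∑ i ∈ Finset.range n,
        ((P.coeff i : ↥(k⟮jqModC k⟯)) : LaurentSeries k) * β ^ i := by
      rw [Polynomial.aeval_eq_sum_range' (Nat.lt_succ_self _)]
      refine Finset.sum_congr rfl fun i _ => ?_
      rw [Algebra.smul_def]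
      rfl
    have h3 := congrArg (qExpand k p) h2
    rw [hroot, map_zero, map_sum] at h3
    rw [h3]
    refine Finset.sum_congr rfl fun i _ => ?_
    rw [map_mul, map_pow]
  -- apply `σ`
  have hσS := congrArg σ hS
  rw [map_zero, map_sum] at hσS
  have hroot' : (Q.map (qExpand k p)).IsRoot y := by
    rw [Polynomial.IsRoot.def, Polynomial.eval_eq_sum_range' (n := n)]
    · rw [← hσS]
      refine Finset.sum_congr rfl fun i _ => ?_
      rw [map_mul, map_pow, AlgHom.commutes, Polynomial.coeff_map, hQ, Polynomial.coeff_map]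
      rfl
    · calc (Q.map (qExpand k p)).natDegree ≤ Q.natDegree := Polynomial.natDegree_map_le
        _ ≤ P.natDegree := Polynomial.natDegree_map_le
        _ < n := Nat.lt_succ_self _
  obtain ⟨r, hr⟩ := hsplit.mem_range_of_isRoot hQ0 hroot'
  exact (mem_Lp_iff k p y).mpr ⟨r, hr⟩

end Fermat.Agent.S16.Three
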