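/-
S16, FIELD block (U3 / U5), abstract lemma (L) "no normal subextension" (Mathlib only).

If a finite extension `F / K` has `[F : K] ≥ 3` pairwise distinct `K`-embeddings `σ i` into an
algebraically closed field (as many as the degree), and `β ∈ F` takes the same value under all
embeddings except possibly one distinguished embedding `σ iInf`, then `β ∈ K`.
-/
import Mathlib

set_option autoImplicit false

open IntermediateField Module

namespace Fermat.Agent.S16.Three

section Core

variable {K F Ω : Type*} [Field K] [Field F] [Field Ω] [Algebra K F] [Algebra K Ω]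
  [FiniteDimensional K F] [IsAlgClosed Ω]

/-- A complete list of embeddings: injective family of the right cardinality is surjective. -/
theorem surjective_of_card_eq_finrank {ι : Type*} [Fintype ι] (σ : ι → (F →ₐ[K] Ω))
    (hσ : Function.Injective σ) (hcard : Fintype.card ι = finrank K F) :
    Function.Surjective σ := by
  classical
  have : Fintype (F →ₐ[K] Ω) := minpoly.AlgHom.fintype K F Ω
  have hle : Fintype.card (F →ₐ[K] Ω) ≤ finrank K F := by
    have h1 := Field.finSepDegree_le_finrank K F
    rwa [Field.finSepDegree_eq_of_isAlgClosed K F Ω, Nat.card_eq_fintype_card] at h1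
  have hbij : Function.Bijective σ := by
    rw [Fintype.bijective_iff_injective_and_card]
    refine ⟨hσ, le_antisymm (Fintype.card_le_of_injective σ hσ) ?_⟩
    rw [hcard]; exact hle
  exact hbij.2

theorem isSeparable_of_card_eq_finrank {ι : Type*} [Fintype ι] (σ : ι → (F →ₐ[K] Ω))
    (hσ : Function.Injective σ) (hcard : Fintype.card ι = finrank K F) :
    Algebra.IsSeparable K F := by
  classical
  have : Fintype (F →ₐ[K] Ω) := minpoly.AlgHom.fintype K F Ω
  rw [← Field.finSepDegree_eq_finrank_iff]
  apply le_antisymm (Field.finSepDegree_le_finrank K F)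
  rw [Field.finSepDegree_eq_of_isAlgClosed K F Ω, Nat.card_eq_fintype_card, ← hcard]
  exact Fintype.card_le_of_injective σ hσ

/-- **Lemma (L), core form.** -/
theorem mem_bot_of_two_values {ι : Type*} [Fintype ι] (σ : ι → (F →ₐ[K] Ω))
    (hσ : Function.Injective σ) (hcard : Fintype.card ι = finrank K F)
    (h3 : 3 ≤ Fintype.card ι) (iInf : ι) (β : F)
    (hβ : ∀ i j, i ≠ iInf → j ≠ iInf → σ i β = σ j β) :
    β ∈ (⊥ : IntermediateField K F) := by
  classical
  have hsep : Algebra.IsSeparable K F := isSeparable_of_card_eq_finrank σ hσ hcard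
  have hsurj := surjective_of_card_eq_finrank σ hσ hcard
  set M : IntermediateField K F := K⟮β⟯ with hM
  have hβM : β ∈ M := mem_adjoin_simple_self K β
  -- embeddings of M are determined by the image of β
  have hdet : ∀ f g : M →ₐ[K] Ω, f ⟨β, hβM⟩ = g ⟨β, hβM⟩ → f = g := by
    intro f g hfg
    refine IntermediateField.algHom_ext_of_eq_adjoin (F := K) (S := M) (s := {β}) rfl ?_
    intro x hx
    have hxβ : x = β := hx
    subst hxβ
    exact hfg
  -- every embedding of M is a restriction of some σ i
  have hres : ∀ f : M →ₐ[K] Ω, ∃ i, (σ i).comp M.val = f := by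
    intro f
    obtain ⟨ψ, hψ⟩ := IsAlgClosed.surjective_domRestrict_of_isAlgebraic (K := K) (L := M)
      (M := Ω) (E := F) f
    obtain ⟨i, hi⟩ := hsurj ψ
    refine ⟨i, ?_⟩
    rw [hi, ← hψ]
    rfl
  -- the restriction of the distinguished embedding
  set fInf : M →ₐ[K] Ω := (σ iInf).comp M.val with hfInf
  -- the fibre over fInf: M-embeddings of F
  let : Algebra M Ω := fInf.toRingHom.toAlgebra
  have : IsScalarTower K M Ω := IsScalarTower.of_algebraMap_eq fun x => (fInf.commutes x).symm
  have hfib : Field.finSepDegree M F = Nat.card (F →ₐ[M] Ω) :=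
    Field.finSepDegree_eq_of_isAlgClosed M F Ω
  -- M-embeddings restrict to K-embeddings extending fInf
  have hrestr : ∀ ψ : F →ₐ[M] Ω, ∃ i, σ i = ψ.restrictScalars K ∧ (σ i).comp M.val = fInf := by
    intro ψ
    obtain ⟨i, hi⟩ := hsurj (ψ.restrictScalars K)
    refine ⟨i, hi, ?_⟩
    ext m
    rw [hi]
    simp only [AlgHom.coe_comp, Function.comp_apply, AlgHom.restrictScalars_apply]
    exact ψ.commutes m
  by_contra hβbot
  -- there is an index i₀ ≠ iInf
  have hex : ∃ i₀ : ι, i₀ ≠ iInf := by
    by_contra hcon
    push Not at hcon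
    have : Fintype.card ι ≤ 1 := Fintype.card_le_one_iff.mpr fun a b => by rw [hcon a, hcon b]
    omega
  obtain ⟨i₀, hi₀⟩ := hex
  -- case distinction: σ i₀ β = σ iInf β or not
  by_cases heq : σ i₀ β = σ iInf β
  · -- then all embeddings agree on β, so M has a single embedding, so M = ⊥
    have hall : ∀ i, σ i β = σ iInf β := by
      intro i
      by_cases hi : i = iInf
      · rw [hi]
      · rw [hβ i i₀ hi hi₀, heq]
    have hone : ∀ f : M →ₐ[K] Ω, f = fInf := by
      intro f
      obtain ⟨i, hi⟩ := hres f
      apply hdet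
      rw [← hi, hfInf]
      simp only [AlgHom.coe_comp, Function.comp_apply]
      exact hall i
    have : Algebra.IsSeparable K M := Algebra.isSeparable_tower_bot_of_isSeparable K M F
    have hdeg : finrank K M = 1 := by
      rw [← Field.finSepDegree_eq_finrank_of_isSeparable K M,
        Field.finSepDegree_eq_of_isAlgClosed K M Ω, Nat.card_eq_one_iff_unique]
      exact ⟨⟨fun f g => by rw [hone f, hone g]⟩, ⟨fInf⟩⟩
    have hMbot : M = ⊥ := IntermediateField.finrank_eq_one_iff.mp hdeg
    exact hβbot (hMbot ▸ hβM)
  · -- two values: the fibre over fInf is the single index iInf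
    have huniq : ∀ ψ : F →ₐ[M] Ω, ψ.restrictScalars K = σ iInf := by
      intro ψ
      obtain ⟨i, hi, hif⟩ := hrestr ψ
      have hval : σ i β = σ iInf β := by
        have := congrArg (fun f : M →ₐ[K] Ω => f ⟨β, hβM⟩) hif
        simpa [hfInf] using this
      by_cases hii : i = iInf
      · rw [← hi, hii]
      · exact absurd (by rw [← hval]; exact hβ i₀ i hi₀ hii) heq
    have hcard1 : Nat.card (F →ₐ[M] Ω) ≤ 1 := by
      have : Finite (F →ₐ[M] Ω) := by
        have : Fintype (F →ₐ[M] Ω) := minpoly.AlgHom.fintype M F Ω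
        infer_instance
      rw [Finite.card_le_one_iff_subsingleton]
      exact ⟨fun ψ₁ ψ₂ => AlgHom.restrictScalars_injective K (by rw [huniq ψ₁, huniq ψ₂])⟩
    -- degrees: (finrank K M) * (finSepDegree M F) = card ι, finrank K M ≤ 2
    have : Algebra.IsSeparable K M := Algebra.isSeparable_tower_bot_of_isSeparable K M F
    have hprod := Field.finSepDegree_mul_finSepDegree_of_isAlgebraic K M F
    rw [Field.finSepDegree_eq_finrank_of_isSeparable K M,
      Field.finSepDegree_eq_finrank_of_isSeparable K F, ← hcard, hfib] at hprod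
    -- finrank K M ≤ 2 : at most two embeddings
    have hle2 : finrank K M ≤ 2 := by
      rw [← Field.finSepDegree_eq_finrank_of_isSeparable K M,
        Field.finSepDegree_eq_of_isAlgClosed K M Ω]
      have : Fintype (M →ₐ[K] Ω) := minpoly.AlgHom.fintype K M Ω
      rw [Nat.card_eq_fintype_card]
      -- the map f ↦ (f β = σ iInf β) is injective into Bool
      have hinj : Function.Injective
          (fun f : M →ₐ[K] Ω => decide (f ⟨β, hβM⟩ = σ iInf β)) := by
        intro f g hfg
        apply hdet
        obtain ⟨i, hi⟩ := hres f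
        obtain ⟨j, hj⟩ := hres g
        have hfi : f ⟨β, hβM⟩ = σ i β := by rw [← hi]; rfl
        have hgj : g ⟨β, hβM⟩ = σ j β := by rw [← hj]; rfl
        simp only [decide_eq_decide] at hfg
        by_cases h1 : f ⟨β, hβM⟩ = σ iInf β
        · rw [h1, hfg.mp h1]
        · have h2 : ¬ g ⟨β, hβM⟩ = σ iInf β := fun h => h1 (hfg.mpr h)
          have hi' : i ≠ iInf := fun h => h1 (by rw [hfi, h])
          have hj' : j ≠ iInf := fun h => h2 (by rw [hgj, h])
          rw [hfi, hgj, hβ i j hi' hj']
      have := Fintype.card_le_of_injective _ hinj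
      simpa using this
    have : Fintype.card ι ≤ 2 := by
      calc Fintype.card ι = finrank K M * Nat.card (F →ₐ[M] Ω) := hprod.symm
        _ ≤ 2 * 1 := Nat.mul_le_mul hle2 hcard1
        _ = 2 := by norm_num
    omega

end Core

section Twist

variable {K F L' : Type*} [Field K] [Field F] [Field L'] [Algebra K F] [Algebra K L']
  [FiniteDimensional K F]

/-- **Lemma (L), twist form** (the shape produced by the conjugate family of `X₀(p)`):
`σ i : F →ₐ[K] L'` is a complete list of embeddings (`card ι = [F : K] ≥ 3`), `tw` is a ring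
endomorphism of `L'` permuting the embeddings via `rot`, all indices different from the
distinguished one `iInf` lie in a single `rot`-orbit, and `β ∈ F` has all its conjugates
`σ i β` fixed by `tw`. Then `β ∈ K`. -/
theorem mem_bot_of_twist {ι : Type*} [Fintype ι] (σ : ι → (F →ₐ[K] L'))
    (hσ : Function.Injective σ) (hcard : Fintype.card ι = finrank K F)
    (h3 : 3 ≤ Fintype.card ι) (tw : L' →+* L') (rot : ι → ι)
    (hrot : ∀ i f, σ (rot i) f = tw (σ i f)) (iInf : ι)
    (horb : ∀ i j, i ≠ iInf → j ≠ iInf → ∃ n : ℕ, rot^[n] i = j)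
    (β : F) (hβ : ∀ i, tw (σ i β) = σ i β) :
    β ∈ (⊥ : IntermediateField K F) := by
  let Ω := AlgebraicClosure L'
  let σ' : ι → (F →ₐ[K] Ω) := fun i => (IsScalarTower.toAlgHom K L' Ω).comp (σ i)
  have hσ' : Function.Injective σ' := by
    intro i j hij
    apply hσ
    ext f
    have := congrArg (fun g : F →ₐ[K] Ω => g f) hij
    exact (algebraMap L' Ω).injective this
  have hiter : ∀ (n : ℕ) (i : ι), σ (rot^[n] i) β = σ i β := by
    intro n
    induction n with
    | zero => intro i; rfl
    | succ n ih =>
      intro i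
      rw [Function.iterate_succ_apply', hrot, ih, hβ]
  refine mem_bot_of_two_values σ' hσ' hcard h3 iInf β ?_
  intro i j hi hj
  obtain ⟨n, hn⟩ := horb i j hi hj
  change algebraMap L' Ω (σ i β) = algebraMap L' Ω (σ j β)
  rw [← hn, hiter]

end Twist

end Fermat.Agent.S16.Three
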