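/-
P-S16, block U3, final statement (helper21): `NoUnitForm p 3 2` for every prime `p ≠ 3`:
there is no weight two modular form on `Γ₀(p)` with `3`-integral rational `q`-expansion which is
congruent to `1` modulo `9`.

Assembly of `Three/Main.noUnitForm_three_of` (helper90) with
`RatioForms/Adapter.exists_field_ratioMemFk` (helper19) and `Three/ConjDescent.conjDescent`.
-/
import Fermat.Agent.S16.Three.ConjDescent
import Fermat.Agent.S16.RatioForms.Adapter

set_option autoImplicit false

namespace Fermat.Agent.S16.Three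

/-- **Block U3 of P-S16.** -/
theorem noUnitForm_three_prime (p : ℕ) [Fact p.Prime] (hp3 : p ≠ 3) : NoUnitForm p 3 2 := by
  have : Fact (Nat.Prime 3) := ⟨Nat.prime_three⟩
  have h3p : ¬ 3 ∣ p := fun h =>
    hp3 ((Nat.prime_dvd_prime_iff_eq Nat.prime_three Fact.out).mp h).symm
  obtain ⟨k, _, _, _, hR⟩ :=
    Fermat.Agent.S16.RatioForms.exists_field_ratioMemFk 3 (N := p) h3p
  exact noUnitForm_three_of p k hR (conjDescent 3 p (Ne.symm hp3) k)

end Fermat.Agent.S16.Three
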